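import Fermat.Agent.Sen.Operator

/-!
# Vanishing of the Sen operator and the weights of the Tate twists

The Sen operator is zero exactly when some basis is fixed by an open subgroup, and for a sum of
Tate twists it is diagonal with the exponents as entries.
-/

set_option autoImplicit false
set_option linter.unusedSectionVars false

noncomputable section

open Finset Filter UniformSpace FA.TateSen NormedSpace FA.Brumer
open scoped Topology Matrix.Norms.Elementwise Nat

namespace FA.Sen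

variable {p : ℕ} [hp : Fact p.Prime] {d : Type*} [Fintype d] [DecidableEq d]

local notation "C" => ℂ_[p]
local notation "Ω" => PadicAlgCl p
local notation "G" => PadicAlgCl p ≃ₐ[ℚ_[p]] PadicAlgCl p
local notation "Md" => Matrix d d ℂ_[p]

theorem expM_zero : exp (0 : Md) = 1 := exp_zero

/-- The action on a representation trivial on the kernel commutes past its values in a level. -/
theorem IsLevelForm.apply_conj {W : G → Md} (hW : IsRep p d W) {m : ℕ} (h : IsLevelForm p d W m)
    {r : G} (hr : r ∈ (cycInf p).fixingSubgroup) (σ : G) : W (r⁻¹ * σ * r) = W σ := by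
  rw [hW.mul_right_of_trivial h.ker _ hr, hW.cocycle, h.ker _ (inv_mem hr), one_mul,
    galM_fix_levelMat (ker_le_levelGal m (inv_mem hr)) (h.mem σ)]

/-- An open subgroup on which some basis is fixed yields such a basis over the completed tower. -/
theorem exists_kerFixed_invariant {W : G → Md} (hW : IsRep p d W) {m : ℕ}
    (h : IsLevelForm p d W m) {X : Md} (hX : IsUnit X) {V : Subgroup G}
    (hV : IsOpen (V : Set G)) (hfix : ∀ σ ∈ V, W σ * galM σ X = X) :
    ∃ (Y : Md) (N : Set G), IsUnit Y ∧ KerFixed p d Y ∧ IsOpen N ∧ (1 : G) ∈ N ∧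
      ∀ σ ∈ N, W σ * galM σ Y = Y := by
  classical
  set H := (cycInf p).fixingSubgroup
  obtain ⟨N, hNn, hNo, hNV⟩ := exists_open_normal_subset (hV.mem_nhds V.one_mem)
  have := levelGroup_finite (F := cycInf p) hNo
  have : Fintype (LevelGroup (cycInf p) N) := Fintype.ofFinite _
  have hrep : ∀ g : LevelGroup (cycInf p) N, ∃ σ : H, levelRes σ = g.1 := fun g => g.2
  choose r hr using hrep
  obtain ⟨c, hc⟩ := exists_twisted_sum_isUnit (fun g => galM (r g : G) X) (g₀ := 1)
    (hX.map (galM _))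
  have hcr : ∀ g, levelChar g c = gal (r g : G) ((c : Ω) : C) := fun g =>
    (coe_level_smul (r g) g (hr g) c).symm
  set Y : Md := ∑ g, levelChar g c • galM (r g : G) X
  obtain ⟨E, hcE, -, -, hEn, hEo⟩ := exists_normal_field (c : Ω)
  have hLn := levelGal_normal (p := p) m
  set N' : Subgroup G := E.fixingSubgroup ⊓ (N ⊓ levelGal p m)
  refine ⟨Y, N', hc, fun g hg => ?_, hEo.inter (hNo.inter (isOpen_levelGal m)), one_mem N', ?_⟩
  · set g₀ : LevelGroup (cycInf p) N := ⟨levelRes ⟨g, hg⟩, ⟨⟨g, hg⟩, rfl⟩⟩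
    simp only [Y]
    rw [map_sum]
    conv_rhs => rw [← Equiv.sum_comp (Equiv.mulLeft g₀)]
    refine sum_congr rfl fun x _ => ?_
    have hres : levelRes (U := N) (⟨g, hg⟩ * r x) = (g₀ * x).1 :=
      levelRes_mul_eq _ _ g₀ x rfl (hr x)
    have h4 := mem_of_levelRes_eq hNo ((hr (g₀ * x)).trans hres.symm)
    rw [Subgroup.coe_mul] at h4
    have h5 : ((r (g₀ * x) : G))⁻¹ * (g * (r x : G)) ∈ H :=
      H.mul_mem (H.inv_mem (r (g₀ * x)).2) (H.mul_mem hg (r x).2)
    rw [galM_csmul, ← galM_mul, hcr, ← gal_mul]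
    congr 1
    · have h3 := coe_level_smul (V := N) (⟨g, hg⟩ * r x) (g₀ * x) hres c
      rw [Subgroup.coe_mul] at h3
      exact h3
    · show galM (g * (r x : G)) X = galM (r (g₀ * x) : G) X
      conv_lhs => rw [show g * (r x : G) =
        (r (g₀ * x) : G) * (((r (g₀ * x) : G))⁻¹ * (g * (r x : G))) by rw [mul_inv_cancel_left]]
      have h6 := hfix _ (hNV _ h4)
      rw [h.ker _ h5, one_mul] at h6
      rw [galM_mul, h6]
  · intro σ hσ
    simp only [Y]
    rw [map_sum, Finset.mul_sum]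
    refine sum_congr rfl fun g _ => ?_
    rw [galM_csmul, mul_smul_comm]
    set ρ : G := (r g : G)
    have hσ' : ρ⁻¹ * σ * ρ ∈ N' := by
      refine ⟨?_, ?_, ?_⟩
      · simpa [mul_assoc] using hEn.conj_mem σ hσ.1 ρ⁻¹
      · simpa [mul_assoc] using hNn.conj_mem σ hσ.2.1 ρ⁻¹
      · simpa [mul_assoc] using hLn.conj_mem σ hσ.2.2 ρ⁻¹
    have eσ : σ * ρ = ρ * (ρ⁻¹ * σ * ρ) := by group
    congr 1
    · rw [hcr, ← gal_mul, eσ, gal_mul, gal_coe (ρ⁻¹ * σ * ρ),
        fixed_of_le hσ'.1 hcE]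
    · have h6 := hfix _ (hNV _ hσ'.2.1)
      rw [h.apply_conj hW (r g).2] at h6
      rw [← galM_mul, eσ, galM_mul,
        ← galM_fix_levelMat (ker_le_levelGal m (r g).2) (h.mem σ), ← map_mul, h6]

/-- A basis over the completed tower fixed near the identity makes the representation trivial on a
level. -/
theorem IsLevelForm.exists_eq_one {W : G → Md} (hW : IsRep p d W) {m : ℕ}
    (h : IsLevelForm p d W m) {Y : Md} (hY : IsUnit Y) (hYker : KerFixed p d Y) {N : Set G}
    (hN : IsOpen N) (h1 : (1 : G) ∈ N) (hfix : ∀ σ ∈ N, W σ * galM σ Y = Y) :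
    ∃ n, ∀ σ ∈ levelGal p n, W σ = 1 := by
  set H := (cycInf p).fixingSubgroup
  obtain ⟨l, hl⟩ := exists_levelGal_subset (W := ⋃ g : H, (fun σ : G => σ * (g : G)) ⁻¹' N)
    (isOpen_iUnion fun g : H => hN.preimage (continuous_id.mul continuous_const))
    (fun g hg => Set.mem_iUnion.2 ⟨⟨g⁻¹, inv_mem hg⟩, by simpa using h1⟩) m
  have hfix' : ∀ σ ∈ levelGal p (m + l), W σ * galM σ Y = Y := fun σ hσ => by
    obtain ⟨g, hg⟩ := Set.mem_iUnion.1 (hl σ hσ)
    have h2 := hfix (σ * (g : G)) hg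
    rwa [hW.mul_right_of_trivial h.ker σ g.2, galM_mul, hYker _ g.2] at h2
  obtain ⟨γ, hγ⟩ := exists_gen (p := p) (m := m + l) (h.le.trans (Nat.le_add_right m l))
  have hmem := mem_levelGal_gen hγ
  have hYm : Y ∈ levelMat p d (m + l) := mem_levelMat_of_intertwine hγ hYker
    (levelMat_mono (Nat.le_add_right m l) (h.mem γ)) (one_mem _)
    (h.small γ (levelGal_antitone (Nat.le_add_right m l) hmem))
    (by rw [sub_self, norm_zero]; exact inv_nonneg.2 (pow_nonneg pR_pos.le 3))
    (by rw [hfix' γ hmem, mul_one])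
  refine ⟨m + l, fun σ hσ => hY.mul_right_cancel ?_⟩
  have h2 := hfix' σ hσ
  rw [galM_fix_levelMat hσ hYm] at h2
  rw [h2, one_mul]

/-- **The Sen operator vanishes exactly when some basis is fixed by an open subgroup.** -/
theorem IsSenOperator.eq_zero_iff {U : G → Md} (hU : IsRep p d U) {Θ : Md}
    (h : IsSenOperator p d U Θ) :
    Θ = 0 ↔ ∃ (M : Mdˣ) (V : Subgroup G), IsOpen (V : Set G) ∧ ∀ σ ∈ V, conj U M σ = 1 := by
  obtain ⟨P, m, hP, -, n, hn⟩ := h
  refine ⟨fun h0 => ⟨P, levelGal p n, isOpen_levelGal n, fun σ hσ => ?_⟩, ?_⟩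
  · rw [hn σ hσ, h0, smul_zero, expM_zero]
  rintro ⟨M, V, hV, hM⟩
  set X := P⁻¹ * M
  have hfix : ∀ σ ∈ V, conj U P σ * galM σ (X : Md) = X := fun σ hσ => by
    rw [← conj_eq_one_iff, conj_conj, mul_inv_cancel_left]
    exact hM σ hσ
  obtain ⟨Y, N, hY, hYker, hN, h1, hYfix⟩ :=
    exists_kerFixed_invariant (hU.conj P) hP X.isUnit hV hfix
  obtain ⟨n', hn'⟩ := hP.exists_eq_one (hU.conj P) hY hYker hN h1 hYfix
  obtain ⟨γ, hγ⟩ := exists_gen (p := p) hP.le
  refine eq_of_exp_log hγ (n := max n n') fun σ hσ => ?_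
  rw [← hn σ (levelGal_antitone (le_max_left _ _) hσ),
    hn' σ (levelGal_antitone (le_max_right _ _) hσ), smul_zero, expM_zero]

theorem exp_eq_pexp (x : ℚ_[p]) : exp x = pexp x := by
  rw [exp_eq_tsum ℚ_[p]]
  simp only [pexp, expTerm, smul_eq_mul, mul_comm]

theorem chi_sub_one_le {m : ℕ} {σ : G} (hσ : σ ∈ levelGal p m) :
    ‖((chi p σ : ℤ_[p]) : ℚ_[p]) - 1‖ ≤ ‖(p : ℚ_[p])‖ ^ m := by
  obtain ⟨z, hz⟩ := exists_primitive p m
  have h := toZModPow_eq_of_root σ hz (k := 1)
    (by rw [pow_one, fixed_of_le hσ (IntermediateField.subset_adjoin _ _ hz.pow_eq_one)])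
  rw [toZModPow_eq_iff, Nat.cast_one] at h
  exact h

theorem norm_natCast_unit : ‖((p - 1 : ℕ) : ℚ_[p])‖ = 1 := by
  rw [Padic.norm_natCast_eq_one_iff]
  exact (hp.out.coprime_iff_not_dvd).2 fun hd => by
    have := Nat.le_of_dvd (Nat.sub_pos_of_lt hp.out.one_lt) hd
    have := hp.out.pos
    omega

/-- Near one only one is killed by the exponent `φ (p ^ 3)`. -/
theorem eq_one_of_pow_logExp {u : ℚ_[p]} (h1 : ‖u - 1‖ ≤ rad2 p) (h : u ^ logExp p = 1) :
    u = 1 := by
  set N := u - 1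
  have hu : 1 + N = u := by simp only [N]; ring
  rw [logExp, Nat.totient_prime_pow_succ hp.out, pow_mul] at h
  set M := u ^ p ^ 2 - 1
  have hM : ‖M‖ ≤ ((p : ℝ) ^ 2)⁻¹ * ‖N‖ := by
    have := norm_pow_pp_sub_le h1 2
    rwa [hu] at this
  have hM2 : ‖M‖ ≤ rad2 p := hM.trans
    ((mul_le_of_le_one_left (norm_nonneg _) (inv_pow_le_one 2)).trans h1)
  have h2 := norm_one_add_pow_sub_le (hM2.trans rad2_le_one) (p - 1)
  rw [show 1 + M = u ^ p ^ 2 by simp only [M]; ring, h, sub_self, zero_sub, norm_neg,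
    ← Nat.cast_smul_eq_nsmul ℚ_[p], norm_smul, norm_natCast_unit, one_mul] at h2
  have hM0 : ‖M‖ ≤ 0 := by
    by_contra hgt
    rw [not_le] at hgt
    rw [pow_two] at h2
    exact absurd h2 (not_le.2 (mul_lt_of_lt_one_left hgt
      (hM2.trans_lt (rad2_lt.trans (inv_lt_one_of_one_lt₀ one_lt_pR)))))
  have h3 := norm_le_pow_pp_sub_one h1 2
  rw [hu] at h3
  exact sub_eq_zero.1 (norm_le_zero_iff.1 (h3.trans
    (mul_nonpos_of_nonneg_of_nonpos (pow_nonneg pR_pos.le 2) hM0)))

/-- **The character is the exponential of its logarithm** near the identity. -/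
theorem exists_chi_eq_exp : ∃ n, 3 ≤ n ∧ ∀ σ ∈ levelGal p n,
    ‖logChi p σ‖ ≤ rad2 p ∧ exp (logChi p σ) = ((chi p σ : ℤ_[p]) : ℚ_[p]) := by
  obtain ⟨n, hn⟩ := exists_levelGal_subset (W := {σ : G | ‖logChi p σ‖ < rad2 p})
    (isOpen_lt continuous_logChi.norm continuous_const) (fun g hg => by
      show ‖logChi p g‖ < rad2 p
      rw [logChi_eq_zero_of_ker hg, norm_zero]
      exact rad2_pos) 3
  refine ⟨3 + n, Nat.le_add_right 3 n, fun σ hσ => ?_⟩
  set x := logChi p σ
  have hx : ‖x‖ ≤ rad2 p := (hn σ hσ : ‖x‖ < rad2 p).le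
  refine ⟨hx, ?_⟩
  set c : ℚ_[p] := ((chi p σ : ℤ_[p]) : ℚ_[p])
  have hc : ‖c - 1‖ ≤ rad2 p := by
    refine (chi_sub_one_le hσ).trans ?_
    rw [Padic.norm_p, inv_pow]
    exact inv_pow_le (by omega)
  have he : exp x ^ logExp p = c ^ logExp p := by
    rw [← exp_nsmul_small hx, nsmul_eq_mul, show x = plog p (c ^ logExp p) / (logExp p : ℚ_[p])
      from rfl, mul_div_cancel₀ _ (Nat.cast_ne_zero.2 logExp_pos.ne'), exp_eq_pexp,
      pexp_plog (norm_chi_pow_sub_one σ)]
  have hc0 : c ≠ 0 := chi_ne_zero σ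
  have hu : ‖exp x / c - 1‖ ≤ rad2 p := by
    rw [div_sub_one hc0, norm_div, norm_chi, div_one,
      show exp x - c = (exp x - 1) - (c - 1) by ring]
    exact (norm_sub_le_ultra _ _).trans (max_le ((norm_exp_sub_one_le hx).trans hx) hc)
  exact (div_eq_one_iff_eq hc0).1 (eq_one_of_pow_logExp hu (by
    rw [div_pow, he, div_self (pow_ne_zero _ hc0)]))

theorem exp_intCast_mul {x : ℚ_[p]} (hx : ‖x‖ ≤ rad2 p) (j : ℤ) :
    exp ((j : ℚ_[p]) * x) = exp x ^ j := by
  obtain ⟨n, rfl | rfl⟩ := j.eq_nat_or_neg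
  · rw [Int.cast_natCast, ← nsmul_eq_mul, exp_nsmul_small hx, zpow_natCast]
  · rw [Int.cast_neg, Int.cast_natCast, neg_mul, ← nsmul_eq_mul, zpow_neg, zpow_natCast,
      ← exp_nsmul_small hx]
    exact eq_inv_of_mul_eq_one_right (exp_neg_mul_self ((norm_nsmul_le_self n x).trans hx))

theorem norm_diagonal_le {v : d → C} {r : ℝ} (hr : 0 ≤ r) (hv : ∀ i, ‖v i‖ ≤ r) :
    ‖(Matrix.diagonal v : Md)‖ ≤ r :=
  (Matrix.norm_le_iff hr).2 fun i k => by
    rcases eq_or_ne i k with rfl | hik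
    · rw [Matrix.diagonal_apply_eq]; exact hv i
    · rw [Matrix.diagonal_apply_ne _ hik, norm_zero]; exact hr

theorem expM_diagonal {v : d → C} (hv : ∀ i, ‖v i‖ ≤ rad2 p) :
    exp (Matrix.diagonal v : Md) = Matrix.diagonal fun i => exp (v i) := by
  refine Matrix.ext fun i k => ?_
  let f : Md →+ C := { toFun := fun M => M i k, map_zero' := rfl, map_add' := fun _ _ => rfl }
  have h : HasSum (fun n => (((n ! : ℕ) : ℚ_[p])⁻¹ • (Matrix.diagonal v : Md) ^ n) i k)
      (exp (Matrix.diagonal v : Md) i k) :=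
    (hasSum_exp (norm_diagonal_le rad2_pos.le hv)).map f (continuous_id.matrix_elem i k)
  simp only [Matrix.diagonal_pow, Matrix.smul_apply] at h
  rcases eq_or_ne i k with rfl | hik
  · simp only [Matrix.diagonal_apply_eq, Pi.pow_apply] at h ⊢
    exact h.unique (hasSum_exp (hv i))
  · simp only [Matrix.diagonal_apply_ne _ hik, smul_zero] at h ⊢
    exact h.unique hasSum_zero

/-- A sum of Tate twists. -/
def twistRep (j : d → ℤ) (σ : G) : Md := Matrix.diagonal fun i => twist p (j i) σ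

theorem isRep_twistRep (j : d → ℤ) : IsRep p d (twistRep j) where
  cont := continuous_pi fun i => continuous_pi fun k => by
    rcases eq_or_ne i k with rfl | hik
    · simp only [twistRep, Matrix.diagonal_apply_eq]
      exact continuous_twist (j i)
    · simp only [twistRep, Matrix.diagonal_apply_ne _ hik]
      exact continuous_const
  map_one := by
    simp [twistRep, twist]
  cocycle σ τ := by
    rw [twistRep, twistRep, twistRep, galM, RingHom.mapMatrix_apply,
      Matrix.diagonal_map (map_zero _), Matrix.diagonal_mul_diagonal]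
    congr 1
    funext i
    rw [twist_mul, gal_twist]

theorem isLevelForm_twistRep (j : d → ℤ) : IsLevelForm p d (twistRep j) 3 where
  le := by norm_num
  ker g hg := by
    simp only [twistRep, twist_eq_one hg, Matrix.diagonal_one]
  mem σ := fun i k => by
    rcases eq_or_ne i k with rfl | hik
    · rw [twistRep, Matrix.diagonal_apply_eq]
      exact (levelC p 3).algebraMap_mem _
    · rw [twistRep, Matrix.diagonal_apply_ne _ hik]
      exact zero_mem _
  small σ hσ := by
    rw [twistRep, ← Matrix.diagonal_one, Matrix.diagonal_sub]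
    refine norm_diagonal_le (inv_nonneg.2 (pow_nonneg pR_pos.le 3)) fun i => ?_
    rw [twist, ← map_one (algebraMap ℚ_[p] C), ← map_sub, norm_algebraMap',
      ← inv_pow, ← Padic.norm_p (p := p), ← PadicAlgCl.norm_extends (p := p)]
    rw [map_sub, map_zpow₀, map_one]
    refine norm_zpow_sub_one_le (pow_lt_one₀ (norm_nonneg _) Padic.norm_p_lt_one (by norm_num))
      ?_ _
    rw [← map_one (algebraMap ℚ_[p] Ω), ← map_sub, PadicAlgCl.norm_extends]
    exact chi_sub_one_le hσ

/-- Near the identity a sum of Tate twists is the exponential of its exponents. -/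
theorem exists_exp_smul_intDiagonal (j : d → ℤ) : ∃ n, ∀ σ ∈ levelGal p n,
    ‖logChi p σ • (Matrix.diagonal fun i => (j i : C) : Md)‖ ≤ rad2 p ∧
      exp (logChi p σ • (Matrix.diagonal fun i => (j i : C) : Md)) = twistRep j σ := by
  obtain ⟨n, -, hn⟩ := exists_chi_eq_exp (p := p)
  refine ⟨n, fun σ hσ => ?_⟩
  obtain ⟨hx, he⟩ := hn σ hσ
  have hv : ∀ i, logChi p σ • (j i : C) = algebraMap ℚ_[p] C ((j i : ℚ_[p]) * logChi p σ) :=
    fun i => by rw [Algebra.smul_def, map_mul, map_intCast, mul_comm]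
  have hsmall : ∀ i, ‖(j i : ℚ_[p]) * logChi p σ‖ ≤ rad2 p := fun i => by
    rw [norm_mul]
    exact (mul_le_of_le_one_left (norm_nonneg _) (IsUltrametricDist.norm_intCast_le_one _ _)).trans
      hx
  have hv' : ∀ i, ‖logChi p σ • (j i : C)‖ ≤ rad2 p := fun i => by
    rw [hv, norm_algebraMap']; exact hsmall i
  rw [← Matrix.diagonal_smul]
  refine ⟨norm_diagonal_le rad2_pos.le fun i => hv' i, ?_⟩
  rw [expM_diagonal fun i => by exact hv' i]
  refine congrArg Matrix.diagonal (funext fun i => ?_)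
  rw [Pi.smul_apply, hv, ← algebraMap_exp_comm_of_mem_ball _ (mem_expBall (hsmall i)),
    exp_intCast_mul hx, he]
  rfl

/-- **The Sen operator of a sum of Tate twists** is diagonal with the exponents as entries. -/
theorem isSenOperator_twistRep (j : d → ℤ) :
    IsSenOperator p d (twistRep j) (Matrix.diagonal fun i => (j i : C)) := by
  obtain ⟨n, hn⟩ := exists_exp_smul_intDiagonal (p := p) j
  refine ⟨1, 3, ?_, fun i k => ?_, n, fun σ hσ => ?_⟩
  · rw [conj_one]; exact isLevelForm_twistRep j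
  · rcases eq_or_ne i k with rfl | hik
    · rw [Matrix.diagonal_apply_eq]
      exact intCast_mem _ _
    · rw [Matrix.diagonal_apply_ne _ hik]
      exact zero_mem _
  · rw [conj_one, (hn σ hσ).2]

end FA.Sen
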