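import Fermat.Agent.Sen.Banach
import Fermat.Agent.TateSen.Main
import Mathlib.Analysis.Matrix.Normed
import Mathlib.Analysis.Normed.Ring.Units
import Mathlib.Analysis.SpecificLimits.Normed
import Mathlib.LinearAlgebra.Matrix.NonsingularInverse
import Mathlib.Topology.Algebra.Module.FiniteDimension

/-!
# Matrices over `ℂ_p`

The largest absolute value of an entry is an ultrametric algebra norm, the Galois group acts on
entries by isometries, and the matrices with entries in a level of the cyclotomic tower form a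
closed subalgebra.
-/

set_option autoImplicit false
set_option linter.unusedSectionVars false

noncomputable section

open Filter UniformSpace FA.TateSen
open scoped Topology Matrix.Norms.Elementwise

namespace FA.Sen

variable {p : ℕ} [hp : Fact p.Prime] {d : Type*} [Fintype d] [DecidableEq d]

local notation "C" => ℂ_[p]
local notation "Ω" => PadicAlgCl p
local notation "G" => PadicAlgCl p ≃ₐ[ℚ_[p]] PadicAlgCl p
local notation "Md" => Matrix d d ℂ_[p]

theorem norm_matMul_le (X Y : Md) : ‖X * Y‖ ≤ ‖X‖ * ‖Y‖ := by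
  refine (Matrix.norm_le_iff (by positivity)).2 fun i j => ?_
  rw [Matrix.mul_apply]
  refine IsUltrametricDist.norm_sum_le_of_forall_le_of_nonneg (by positivity) fun k _ => ?_
  rw [norm_mul]
  exact mul_le_mul (Matrix.norm_entry_le_entrywise_sup_norm X)
    (Matrix.norm_entry_le_entrywise_sup_norm Y) (norm_nonneg _) (norm_nonneg _)

/-- The normed ring of matrices. -/
scoped instance matNormedRing : NormedRing Md :=
  { (inferInstance : NormedAddCommGroup Md), (inferInstance : Ring Md) with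
    dist_eq := fun x y => (inferInstance : NormedAddCommGroup Md).dist_eq x y
    norm_mul_le := norm_matMul_le }

/-- The normed algebra of matrices. -/
scoped instance matNormedAlgebra : NormedAlgebra ℚ_[p] Md :=
  { (inferInstance : Algebra ℚ_[p] Md) with
    norm_smul_le := fun r x => by
      refine (Matrix.norm_le_iff (by positivity)).2 fun i j => ?_
      rw [Matrix.smul_apply, norm_smul]
      exact mul_le_mul_of_nonneg_left (Matrix.norm_entry_le_entrywise_sup_norm x) (norm_nonneg r) }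

scoped instance matUltrametric : IsUltrametricDist Md :=
  IsUltrametricDist.isUltrametricDist_of_forall_norm_add_le_max_norm fun x y =>
    (Matrix.norm_le_iff (le_max_iff.2 (Or.inl (norm_nonneg x)))).2 fun i j =>
      (IsUltrametricDist.norm_add_le_max (x i j) (y i j)).trans (max_le_max
        (Matrix.norm_entry_le_entrywise_sup_norm x) (Matrix.norm_entry_le_entrywise_sup_norm y))

scoped instance matComplete :
    @CompleteSpace Md (matNormedRing (p := p) (d := d)).toMetricSpace.toUniformSpace :=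
  inferInstanceAs (CompleteSpace (d → d → C))

theorem norm_one_le : ‖(1 : Md)‖ ≤ 1 := by
  refine (Matrix.norm_le_iff zero_le_one).2 fun i j => ?_
  rw [Matrix.one_apply]
  split_ifs <;> simp

theorem norm_le_one_of_sub {X : Md} (h : ‖X - 1‖ ≤ 1) : ‖X‖ ≤ 1 := by
  rw [← sub_add_cancel X 1]
  exact (IsUltrametricDist.norm_add_le_max _ _).trans (max_le h norm_one_le)

theorem isUnit_near_one {X : Md} (h : ‖X - 1‖ < 1) : IsUnit X := by
  have h1 := isUnit_one_sub_of_norm_lt_one (R := Md) (x := 1 - X) (by rwa [norm_sub_rev])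
  rwa [sub_sub_cancel] at h1

theorem norm_inv_sub_one_le {P : Mdˣ} (h : ‖(P : Md) - 1‖ < 1) :
    ‖(↑P⁻¹ : Md) - 1‖ ≤ ‖(P : Md) - 1‖ ∧ ‖(↑P⁻¹ : Md)‖ ≤ 1 := by
  set r := ‖(P : Md) - 1‖
  have e : (↑P⁻¹ : Md) - 1 = (1 - (P : Md)) * (↑P⁻¹ : Md) := by
    rw [sub_mul, one_mul, Units.mul_inv]
  have h1 : ‖(↑P⁻¹ : Md) - 1‖ ≤ r * ‖(↑P⁻¹ : Md)‖ := by
    rw [e]
    exact (norm_mul_le _ _).trans_eq (by rw [norm_sub_rev])
  have h2 : ‖(↑P⁻¹ : Md)‖ ≤ max (r * ‖(↑P⁻¹ : Md)‖) 1 := by
    conv_lhs => rw [← sub_add_cancel (↑P⁻¹ : Md) 1]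
    exact (IsUltrametricDist.norm_add_le_max _ _).trans (max_le_max h1 norm_one_le)
  have h3 : ‖(↑P⁻¹ : Md)‖ ≤ 1 := by
    by_contra hgt
    rw [not_le] at hgt
    exact absurd h2 (not_le.2 (max_lt (mul_lt_of_lt_one_left (one_pos.trans hgt) h) hgt))
  exact ⟨h1.trans (mul_le_of_le_one_right (norm_nonneg _) h3), h3⟩

/-- The action on entries. -/
def galM (σ : G) : Md →+* Md := (gal σ).mapMatrix

theorem galM_apply (σ : G) (X : Md) (i j : d) : galM σ X i j = gal σ (X i j) := rfl

theorem galM_one (X : Md) : galM (1 : G) X = X :=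
  Matrix.ext fun i j => gal_one (X i j)

theorem galM_mul (σ τ : G) (X : Md) : galM (σ * τ) X = galM σ (galM τ X) :=
  Matrix.ext fun i j => gal_mul σ τ (X i j)

theorem norm_galM (σ : G) (X : Md) : ‖galM σ X‖ = ‖X‖ :=
  Matrix.norm_map_eq X _ (norm_galC σ)

theorem isometry_galM (σ : G) : Isometry (galM σ : Md → Md) :=
  AddMonoidHomClass.isometry_of_norm _ (norm_galM σ)

theorem galM_smul (σ : G) (c : ℚ_[p]) (X : Md) : galM σ (c • X) = c • galM σ X := by
  ext i j
  rw [galM_apply, Matrix.smul_apply, Matrix.smul_apply, galM_apply, Algebra.smul_def,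
    Algebra.smul_def, map_mul, gal_scalar]

theorem continuous_galM_apply (X : Md) : Continuous fun σ : G => galM σ X :=
  continuous_pi fun i => continuous_pi fun j => continuous_gal_apply (X i j)

variable (p) in
/-- A level of the tower inside `ℂ_p`. -/
def levelC (m : ℕ) : IntermediateField ℚ_[p] C :=
  (cycLevel p m).map (IsScalarTower.toAlgHom ℚ_[p] Ω C)

theorem mem_levelC {m : ℕ} {x : C} : x ∈ levelC p m ↔ ∃ a ∈ cycLevel p m, (a : C) = x := by
  simp only [levelC, ← SetLike.mem_coe, IntermediateField.coe_map, Set.mem_image,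
    IsScalarTower.coe_toAlgHom', PadicComplex.coe_eq]

theorem coe_mem_levelC {m : ℕ} {a : Ω} (ha : a ∈ cycLevel p m) : (a : C) ∈ levelC p m :=
  mem_levelC.2 ⟨a, ha, rfl⟩

theorem isClosed_levelC (m : ℕ) : IsClosed (levelC p m : Set C) := by
  have h : (levelC p m : Set C) = (↑) '' (cycLevel p m : Set Ω) := Set.ext fun x => mem_levelC
  rw [h]
  exact isClosed_level m

theorem levelC_mono {m n : ℕ} (h : m ≤ n) : levelC p m ≤ levelC p n := fun x hx => by
  obtain ⟨a, ha, rfl⟩ := mem_levelC.1 hx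
  exact coe_mem_levelC (cycLevel_mono h ha)

theorem gal_mem_levelC (σ : G) {m : ℕ} {x : C} (hx : x ∈ levelC p m) : gal σ x ∈ levelC p m := by
  obtain ⟨a, ha, rfl⟩ := mem_levelC.1 hx
  rw [gal_coe]
  exact coe_mem_levelC (gal_mem_cycLevel σ ha)

theorem gal_fix_levelC {σ : G} {m : ℕ} (hσ : σ ∈ levelGal p m) {x : C} (hx : x ∈ levelC p m) :
    gal σ x = x := by
  obtain ⟨a, ha, rfl⟩ := mem_levelC.1 hx
  rw [gal_coe, fixed_of_le hσ ha]

variable (p d) in
/-- The matrices with entries in a level of the tower. -/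
def levelMat (m : ℕ) : Subalgebra ℚ_[p] Md where
  carrier := {X | ∀ i j, X i j ∈ levelC p m}
  mul_mem' := fun {X Y} hX hY i j => by
    rw [Matrix.mul_apply]
    exact sum_mem fun k _ => mul_mem (hX i k) (hY k j)
  add_mem' := fun {X Y} hX hY i j => add_mem (hX i j) (hY i j)
  algebraMap_mem' := fun c i j => by
    rw [Matrix.algebraMap_matrix_apply]
    split_ifs
    · exact (levelC p m).algebraMap_mem c
    · exact zero_mem _

theorem mem_levelMat {m : ℕ} {X : Md} : X ∈ levelMat p d m ↔ ∀ i j, X i j ∈ levelC p m := Iff.rfl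

theorem isClosed_levelMat (m : ℕ) : IsClosed (levelMat p d m : Set Md) := by
  have h : (levelMat p d m : Set Md) = ⋂ i, ⋂ j, (fun X : Md => X i j) ⁻¹' levelC p m := by
    ext X
    simp [mem_levelMat]
  rw [h]
  exact isClosed_iInter fun i => isClosed_iInter fun j =>
    (isClosed_levelC m).preimage (continuous_id.matrix_elem i j)

theorem levelMat_mono {m n : ℕ} (h : m ≤ n) : levelMat p d m ≤ levelMat p d n :=
  fun _ hX i j => levelC_mono h (hX i j)

theorem galM_mem_levelMat (σ : G) {m : ℕ} {X : Md} (hX : X ∈ levelMat p d m) :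
    galM σ X ∈ levelMat p d m := fun i j => gal_mem_levelC σ (hX i j)

theorem galM_fix_levelMat {σ : G} {m : ℕ} (hσ : σ ∈ levelGal p m) {X : Md}
    (hX : X ∈ levelMat p d m) : galM σ X = X :=
  Matrix.ext fun i j => gal_fix_levelC hσ (hX i j)

theorem inv_mem_levelMat {m : ℕ} {P : Mdˣ} (hP : (P : Md) ∈ levelMat p d m) :
    (↑P⁻¹ : Md) ∈ levelMat p d m := by
  set K := levelC p m
  set Pk : Matrix d d K := Matrix.of fun i j => ⟨(P : Md) i j, hP i j⟩
  have hmap : (P : Md) = Pk.map (algebraMap K C) := rfl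
  rw [Matrix.coe_units_inv, Matrix.inv_def]
  intro i j
  rw [Matrix.smul_apply, smul_eq_mul, Ring.inverse_eq_inv, hmap]
  refine mul_mem (inv_mem ?_) ?_
  · rw [← RingHom.mapMatrix_apply, ← RingHom.map_det]
    exact (Pk.det).2
  · rw [← RingHom.mapMatrix_apply, ← RingHom.map_adjugate]
    exact (Pk.adjugate i j).2

variable (p d) in
/-- A matrix fixed by the kernel of the cyclotomic character. -/
def KerFixed (X : Md) : Prop := ∀ h ∈ (cycInf p).fixingSubgroup, galM h X = X

theorem KerFixed.mem_cycHat {X : Md} (hX : KerFixed p d X) (i j : d) : X i j ∈ cycHat p :=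
  (mem_cycHat_iff _).2 fun h hh => congrFun (congrFun (hX h hh) i) j

theorem kerFixed_of_levelMat {m : ℕ} {X : Md} (hX : X ∈ levelMat p d m) : KerFixed p d X :=
  fun _ hh => galM_fix_levelMat (ker_le_levelGal m hh) hX

theorem KerFixed.units_inv {P : Mdˣ} (hP : KerFixed p d P) : KerFixed p d (↑P⁻¹ : Md) := by
  intro h hh
  refine left_inv_eq_right_inv (a := (P : Md)) ?_ P.mul_inv
  calc galM h (↑P⁻¹ : Md) * (P : Md) = galM h (↑P⁻¹ : Md) * galM h (P : Md) := by rw [hP h hh]
    _ = 1 := by rw [← map_mul, Units.inv_mul, map_one]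

end FA.Sen
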