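import Fermat.Agent.Sen.Matrix

/-!
# Semilinear representations of the Galois group on `ℂ_p ^ d`

A semilinear representation is given in a basis by a continuous crossed homomorphism to the
invertible matrices; a change of basis replaces it by a conjugate.
-/

set_option autoImplicit false
set_option linter.unusedSectionVars false

noncomputable section

open Filter UniformSpace FA.TateSen
open scoped Topology Matrix.Norms.Elementwise

namespace FA.Sen

variable {p : ℕ} [hp : Fact p.Prime] {d : Type*} [Fintype d] [DecidableEq d]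

local notation "C" => ℂ_[p]
local notation "Ω" => PadicAlgCl p
local notation "G" => PadicAlgCl p ≃ₐ[ℚ_[p]] PadicAlgCl p
local notation "Md" => Matrix d d ℂ_[p]

variable (p d) in
/-- A continuous crossed homomorphism to the invertible matrices. -/
structure IsRep (U : G → Md) : Prop where
  cont : Continuous U
  map_one : U 1 = 1
  cocycle : ∀ σ τ, U (σ * τ) = U σ * galM σ (U τ)

theorem IsRep.mul_inv {U : G → Md} (hU : IsRep p d U) (σ : G) :
    U σ * galM σ (U σ⁻¹) = 1 := by
  rw [← hU.cocycle, mul_inv_cancel, hU.map_one]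

theorem IsRep.isUnit {U : G → Md} (hU : IsRep p d U) (σ : G) : IsUnit (U σ) :=
  ⟨⟨U σ, galM σ (U σ⁻¹), hU.mul_inv σ, mul_eq_one_comm.1 (hU.mul_inv σ)⟩, rfl⟩

/-- The change of basis by an invertible matrix. -/
def conj (U : G → Md) (P : Mdˣ) (σ : G) : Md := (↑P⁻¹ : Md) * U σ * galM σ (P : Md)

theorem IsRep.conj {U : G → Md} (hU : IsRep p d U) (P : Mdˣ) : IsRep p d (conj U P) where
  cont := (continuous_const.mul hU.cont).mul (continuous_galM_apply (P : Md))
  map_one := by rw [FA.Sen.conj, hU.map_one, galM_one, mul_one, Units.inv_mul]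
  cocycle σ τ := by
    have h : galM σ (P : Md) * galM σ (↑P⁻¹ : Md) = 1 := by
      rw [← map_mul, Units.mul_inv, _root_.map_one]
    simp only [FA.Sen.conj, map_mul, galM_mul, hU.cocycle, mul_assoc]
    rw [← mul_assoc (galM σ (P : Md)), h, one_mul]

theorem conj_conj (U : G → Md) (P Q : Mdˣ) : conj (conj U P) Q = conj U (P * Q) := by
  funext σ
  simp only [conj, mul_inv_rev, Units.val_mul, map_mul, mul_assoc]

theorem conj_one (U : G → Md) : conj U 1 = U := by
  funext σ
  simp only [conj, inv_one, Units.val_one, map_one, one_mul, mul_one]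

theorem conj_eq_one_iff {U : G → Md} {P : Mdˣ} {σ : G} :
    conj U P σ = 1 ↔ U σ * galM σ (P : Md) = P := by
  rw [conj, mul_assoc, Units.inv_mul_eq_iff_eq_mul, mul_one]

theorem conj_eq_iff {U : G → Md} {P : Mdˣ} {σ : G} {B : Md} :
    conj U P σ = B ↔ U σ * galM σ (P : Md) = (P : Md) * B := by
  rw [conj, mul_assoc, Units.inv_mul_eq_iff_eq_mul]

/-- A representation trivial on a subgroup is right invariant under it. -/
theorem IsRep.mul_right_of_trivial {U : G → Md} (hU : IsRep p d U) {S : Subgroup G}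
    (hS : ∀ h ∈ S, U h = 1) (σ : G) {h : G} (hh : h ∈ S) : U (σ * h) = U σ := by
  rw [hU.cocycle, hS h hh, _root_.map_one, mul_one]

theorem IsRep.galM_of_trivial {U : G → Md} (hU : IsRep p d U) {S : Subgroup G}
    (hn : ∀ h ∈ S, ∀ σ : G, σ⁻¹ * h * σ ∈ S) (hS : ∀ h ∈ S, U h = 1) (σ : G) {h : G}
    (hh : h ∈ S) : galM h (U σ) = U σ := by
  have h1 := hU.cocycle h σ
  rw [hS h hh, one_mul] at h1
  rw [← h1, show h * σ = σ * (σ⁻¹ * h * σ) by group, hU.mul_right_of_trivial hS σ (hn h hh σ)]

theorem exists_open_normal_subset {W : Set G} (hW : W ∈ 𝓝 (1 : G)) :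
    ∃ V : Subgroup G, V.Normal ∧ IsOpen (V : Set G) ∧ ∀ v ∈ V, v ∈ W := by
  obtain ⟨_, ⟨_, ⟨E, hE, rfl⟩, rfl⟩, hsub⟩ :=
    ((galGroupBasis ℚ_[p] Ω).nhds_one_hasBasis.mem_iff).1 hW
  have : FiniteDimensional ℚ_[p] E := hE
  obtain ⟨x, hx⟩ := Field.exists_primitive_element ℚ_[p] E
  obtain ⟨N, hxN, -, -, hNn, hNo⟩ := exists_normal_field (x : Ω)
  refine ⟨N.fixingSubgroup, hNn, hNo, fun u hu => hsub ?_⟩
  have hle : E ≤ N := by
    have h := congrArg (IntermediateField.map E.val) hx
    rw [IntermediateField.adjoin_map, Set.image_singleton, ← AlgHom.fieldRange_eq_map,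
      IntermediateField.fieldRange_val] at h
    rw [← h]
    exact IntermediateField.adjoin_simple_le_iff.2 hxN
  exact IntermediateField.fixingSubgroup_antitone hle hu

theorem IsRep.exists_small {U : G → Md} (hU : IsRep p d U) {ε : ℝ} (hε : 0 < ε) :
    ∃ V : Subgroup G, V.Normal ∧ IsOpen (V : Set G) ∧ ∀ v ∈ V, ‖U v - 1‖ < ε :=
  exists_open_normal_subset ((isOpen_lt ((hU.cont.sub continuous_const).norm)
    continuous_const).mem_nhds (by simp [hU.map_one, hε]))

end FA.Sen
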