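import Mathlib.Analysis.Normed.Algebra.Exponential
import Mathlib.Analysis.Normed.Group.Ultra
import Mathlib.Analysis.SpecificLimits.Basic
import Mathlib.NumberTheory.Padics.PadicNumbers
import Fermat.Agent.Transcendence.BrumerExp

/-!
# The exponential and the logarithm in an ultrametric Banach algebra over `ℚ_p`

On the ball of radius `p ^ (-2)` the exponential is `1 + x` up to second order, and every element
within `p ^ (-3)` of `1` is the exponential of a limit of polynomials in it.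
-/

set_option autoImplicit false
set_option linter.unusedSectionVars false

noncomputable section

open Filter NormedSpace Finset
open scoped Topology Nat

namespace FA.Sen

variable {p : ℕ} [hp : Fact p.Prime] {A : Type*} [NormedRing A] [NormedAlgebra ℚ_[p] A]
  [IsUltrametricDist A] [CompleteSpace A]

theorem one_lt_pR : (1 : ℝ) < p := Nat.one_lt_cast.2 hp.out.one_lt

theorem pR_pos : (0 : ℝ) < p := Nat.cast_pos.2 hp.out.pos

variable (p) in
/-- The radius `p ^ (-2)`. -/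
def rad2 : ℝ := ((p : ℝ) ^ 2)⁻¹

theorem rad2_pos : 0 < rad2 p := inv_pos.2 (pow_pos pR_pos 2)

theorem rad2_lt : rad2 p < (p : ℝ)⁻¹ := by
  rw [rad2]
  exact inv_strictAnti₀ pR_pos (lt_self_pow₀ one_lt_pR one_lt_two)

theorem rad2_le_one : rad2 p ≤ 1 := inv_le_one_of_one_le₀ (one_le_pow₀ one_lt_pR.le)

theorem rad3_le_rad2 : ((p : ℝ) ^ 3)⁻¹ ≤ rad2 p :=
  inv_anti₀ (pow_pos pR_pos 2) (pow_le_pow_right₀ one_lt_pR.le (by norm_num))

theorem norm_p_smul (x : A) : ‖(p : ℚ_[p]) • x‖ = (p : ℝ)⁻¹ * ‖x‖ := by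
  rw [norm_smul, Padic.norm_p]

theorem norm_p_pow (k : ℕ) : ‖(p : ℚ_[p]) ^ k‖ = ((p : ℝ) ^ k)⁻¹ := by
  rw [norm_pow, Padic.norm_p, inv_pow]

theorem p_pow_ne (k : ℕ) : (p : ℚ_[p]) ^ k ≠ 0 :=
  pow_ne_zero k (Nat.cast_ne_zero.2 hp.out.ne_zero)

theorem norm_nsmul_le_self (n : ℕ) (x : A) : ‖n • x‖ ≤ ‖x‖ := by
  induction n with
  | zero => simp
  | succ n ih =>
    rw [succ_nsmul]
    exact (IsUltrametricDist.norm_add_le_max _ _).trans (max_le ih le_rfl)

theorem norm_sub_le_max' (x y : A) : ‖x - y‖ ≤ max ‖x‖ ‖y‖ := by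
  rw [sub_eq_add_neg]
  exact (IsUltrametricDist.norm_add_le_max _ _).trans_eq (by rw [norm_neg])

theorem mem_expBall {x : A} (hx : ‖x‖ ≤ rad2 p) :
    x ∈ Metric.eball (0 : A) (expSeries ℚ_[p] A).radius := by
  set r : NNReal := ⟨(p : ℝ)⁻¹, inv_nonneg.2 pR_pos.le⟩
  have h1 : (r : ENNReal) ≤ (expSeries ℚ_[p] A).radius := by
    refine FormalMultilinearSeries.le_radius_of_bound _ (max 1 ‖(1 : A)‖) fun n => ?_
    rw [expSeries, norm_smul, show (r : ℝ) = (p : ℝ)⁻¹ from rfl, inv_pow]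
    have h := FA.Brumer.norm_inv_factorial_le p (C := ℚ_[p]) n
    calc _ ≤ (p : ℝ) ^ n * max 1 ‖(1 : A)‖ * ((p : ℝ) ^ n)⁻¹ := by
          refine mul_le_mul_of_nonneg_right ?_ (by positivity)
          exact mul_le_mul h ContinuousMultilinearMap.norm_mkPiAlgebraFin_le (norm_nonneg _)
            (by positivity)
      _ = max 1 ‖(1 : A)‖ := by
          field_simp [(pow_pos (pR_pos (p := p)) n).ne']
  refine Metric.mem_eball.2 (lt_of_lt_of_le ?_ h1)
  rw [edist_zero_right, ← ofReal_norm, ← ENNReal.ofReal_coe_nnreal, 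
    show (r : ℝ) = (p : ℝ)⁻¹ from rfl]
  exact (ENNReal.ofReal_lt_ofReal_iff (inv_pos.2 pR_pos)).2 (hx.trans_lt rad2_lt)

theorem hasSum_exp {x : A} (hx : ‖x‖ ≤ rad2 p) :
    HasSum (fun n => ((n ! : ℕ) : ℚ_[p])⁻¹ • x ^ n) (exp x) :=
  expSeries_hasSum_exp_of_mem_ball' x (mem_expBall hx)

theorem norm_exp_sub_one_sub_le {x : A} (hx : ‖x‖ ≤ rad2 p) :
    ‖exp x - 1 - x‖ ≤ (p : ℝ) ^ 2 * ‖x‖ ^ 2 := by
  have h := (hasSum_nat_add_iff' (f := fun n => ((n ! : ℕ) : ℚ_[p])⁻¹ • x ^ n) 2).2 (hasSum_exp hx)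
  simp only [sum_range_succ, sum_range_zero, zero_add, pow_zero, pow_one, Nat.factorial_zero,
    Nat.factorial_one, Nat.cast_one, inv_one, one_smul] at h
  rw [sub_sub, ← h.tsum_eq, ← mul_pow]
  refine IsUltrametricDist.norm_tsum_le_of_forall_le_of_nonneg (by positivity) fun n => ?_
  rw [norm_smul]
  refine (mul_le_mul (FA.Brumer.norm_inv_factorial_le p (C := ℚ_[p]) _)
    (norm_pow_le' x (Nat.succ_pos _)) (norm_nonneg _) (by positivity)).trans ?_
  rw [← mul_pow]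
  refine pow_le_pow_of_le_one (by positivity) ?_ (by omega)
  calc (p : ℝ) * ‖x‖ ≤ (p : ℝ) * (p : ℝ)⁻¹ :=
        mul_le_mul_of_nonneg_left (hx.trans rad2_lt.le) pR_pos.le
    _ = 1 := mul_inv_cancel₀ pR_pos.ne'

theorem norm_exp_sub_one_le {x : A} (hx : ‖x‖ ≤ rad2 p) : ‖exp x - 1‖ ≤ ‖x‖ := by
  rw [show exp x - 1 = (exp x - 1 - x) + x by abel]
  refine (IsUltrametricDist.norm_add_le_max _ _).trans (max_le ?_ le_rfl)
  refine (norm_exp_sub_one_sub_le hx).trans ?_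
  rw [pow_two ‖x‖, ← mul_assoc]
  refine mul_le_of_le_one_left (norm_nonneg _) ?_
  calc (p : ℝ) ^ 2 * ‖x‖ ≤ (p : ℝ) ^ 2 * rad2 p := mul_le_mul_of_nonneg_left hx (by positivity)
    _ = 1 := mul_inv_cancel₀ (pow_pos pR_pos 2).ne'

theorem exp_add_small {x y : A} (hxy : Commute x y) (hx : ‖x‖ ≤ rad2 p) (hy : ‖y‖ ≤ rad2 p) :
    exp (x + y) = exp x * exp y :=
  exp_add_of_commute_of_mem_ball hxy (mem_expBall hx) (mem_expBall hy)

theorem exp_neg_mul_self {x : A} (hx : ‖x‖ ≤ rad2 p) : exp x * exp (-x) = 1 := by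
  rw [← exp_add_small ((Commute.refl x).neg_right) hx (by rwa [norm_neg]), add_neg_cancel,
    exp_zero]

theorem exp_nsmul_small {x : A} (hx : ‖x‖ ≤ rad2 p) (n : ℕ) : exp (n • x) = exp x ^ n := by
  induction n with
  | zero => rw [zero_nsmul, pow_zero, exp_zero]
  | succ n ih =>
    rw [succ_nsmul, exp_add_small ((Commute.refl x).smul_left n)
      ((norm_nsmul_le_self n x).trans hx) hx, ih, pow_succ]

theorem commute_exp {x y : A} (h : Commute y x) (hx : ‖x‖ ≤ rad2 p) : Commute y (exp x) := by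
  have h1 := (hasSum_exp hx).mul_left y
  have h2 := (hasSum_exp hx).mul_right y
  simp only [mul_smul_comm, (h.pow_right _).eq] at h1
  simp only [smul_mul_assoc] at h2
  exact h1.unique h2

theorem exp_mem {x : A} (hx : ‖x‖ ≤ rad2 p) (S : Submodule ℚ_[p] A) (hS : IsClosed (S : Set A))
    (h : ∀ n : ℕ, x ^ n ∈ S) : exp x ∈ S :=
  hS.mem_of_tendsto (hasSum_exp hx).tendsto_sum_nat
    (Eventually.of_forall fun _ => S.sum_mem fun n _ => S.smul_mem _ (h n))

theorem norm_one_add_pow_sub_le {N : A} (hN : ‖N‖ ≤ 1) (k : ℕ) :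
    ‖(1 + N) ^ k - 1 - k • N‖ ≤ ‖N‖ ^ 2 := by
  induction k with
  | zero => simp
  | succ k ih =>
    set r := (1 + N) ^ k - 1 - k • N
    have e : (1 + N) ^ (k + 1) - 1 - (k + 1) • N = r + r * N + k • (N * N) := by
      rw [pow_succ, show (1 + N) ^ k = r + 1 + k • N by simp only [r]; abel, succ_nsmul,
        ← smul_mul_assoc]
      simp only [mul_add, add_mul, mul_one, one_mul]
      abel
    rw [e]
    refine (IsUltrametricDist.norm_add_le_max _ _).trans (max_le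
      ((IsUltrametricDist.norm_add_le_max _ _).trans (max_le ih ?_)) ?_)
    · exact (norm_mul_le _ _).trans ((mul_le_of_le_one_right (norm_nonneg _) hN).trans ih)
    · exact (norm_nsmul_le_self _ _).trans ((norm_mul_le _ _).trans_eq (pow_two _).symm)

theorem norm_pow_p_sub_le {N : A} (hN : ‖N‖ ≤ rad2 p) :
    ‖(1 + N) ^ p - 1‖ ≤ (p : ℝ)⁻¹ * ‖N‖ ∧
      ‖(1 + N) ^ p - 1 - (p : ℚ_[p]) • N‖ ≤ ‖N‖ ^ 2 := by
  have h := norm_one_add_pow_sub_le (hN.trans rad2_le_one) p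
  rw [← Nat.cast_smul_eq_nsmul ℚ_[p] p N] at h
  refine ⟨?_, h⟩
  rw [show (1 + N) ^ p - 1 = ((1 + N) ^ p - 1 - (p : ℚ_[p]) • N) + (p : ℚ_[p]) • N by abel]
  refine (IsUltrametricDist.norm_add_le_max _ _).trans (max_le (h.trans ?_) (norm_p_smul N).le)
  rw [pow_two]
  exact mul_le_mul_of_nonneg_right (hN.trans rad2_lt.le) (norm_nonneg _)

/-- Raising to the `p`-th power is injective near one. -/
theorem norm_le_pow_p_sub_one {N : A} (hN : ‖N‖ ≤ rad2 p) :
    ‖N‖ ≤ (p : ℝ) * ‖(1 + N) ^ p - 1‖ := by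
  by_contra hlt
  rw [not_le] at hlt
  have hN0 : 0 < ‖N‖ := (mul_nonneg pR_pos.le (norm_nonneg _)).trans_lt hlt
  have e : (p : ℚ_[p]) • N = ((1 + N) ^ p - 1) - ((1 + N) ^ p - 1 - (p : ℚ_[p]) • N) := by abel
  have h1 := congrArg norm e
  rw [norm_p_smul] at h1
  refine absurd (h1.trans_le (norm_sub_le_max' _ _)) (not_le.2 (max_lt ?_ ?_))
  · rw [inv_mul_eq_div, lt_div_iff₀ pR_pos, mul_comm]
    exact hlt
  · refine (norm_pow_p_sub_le hN).2.trans_lt ?_
    rw [pow_two]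
    exact mul_lt_mul_of_pos_right (hN.trans_lt rad2_lt) hN0

theorem norm_pow_pp_sub_le {N : A} (hN : ‖N‖ ≤ rad2 p) :
    ∀ k : ℕ, ‖(1 + N) ^ p ^ k - 1‖ ≤ ((p : ℝ) ^ k)⁻¹ * ‖N‖
  | 0 => by simp
  | k + 1 => by
    have ih := norm_pow_pp_sub_le hN k
    have h1 : ‖(1 + N) ^ p ^ k - 1‖ ≤ rad2 p :=
      ih.trans ((mul_le_of_le_one_left (norm_nonneg _)
        (inv_le_one_of_one_le₀ (one_le_pow₀ one_lt_pR.le))).trans hN)
    have h2 := (norm_pow_p_sub_le h1).1
    rw [add_sub_cancel, ← pow_mul, ← pow_succ] at h2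
    refine h2.trans ?_
    rw [pow_succ', mul_inv, mul_assoc]
    exact mul_le_mul_of_nonneg_left ih (inv_nonneg.2 pR_pos.le)

theorem norm_le_pow_pp_sub_one {N : A} (hN : ‖N‖ ≤ rad2 p) :
    ∀ k : ℕ, ‖N‖ ≤ (p : ℝ) ^ k * ‖(1 + N) ^ p ^ k - 1‖
  | 0 => by simp
  | k + 1 => by
    have h1 : ‖(1 + N) ^ p ^ k - 1‖ ≤ rad2 p :=
      (norm_pow_pp_sub_le hN k).trans ((mul_le_of_le_one_left (norm_nonneg _)
        (inv_le_one_of_one_le₀ (one_le_pow₀ one_lt_pR.le))).trans hN)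
    have h2 := norm_le_pow_p_sub_one h1
    rw [add_sub_cancel, ← pow_mul, ← pow_succ] at h2
    refine (norm_le_pow_pp_sub_one hN k).trans ?_
    rw [pow_succ, mul_assoc]
    exact mul_le_mul_of_nonneg_left h2 (by positivity)

theorem tendsto_inv_pow (c : ℝ) :
    Tendsto (fun k : ℕ => c * ((p : ℝ) ^ k)⁻¹) atTop (𝓝 0) := by
  simpa [inv_pow] using (tendsto_pow_atTop_nhds_zero_of_lt_one (inv_nonneg.2 (pR_pos (p := p)).le)
    (inv_lt_one_of_one_lt₀ one_lt_pR)).const_mul c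

/-- **The logarithm**: an element near one is an exponential, of an element in every closed
subspace containing its powers. -/
theorem exists_exp_eq {B : A} (hB : ‖B - 1‖ ≤ ((p : ℝ) ^ 3)⁻¹) :
    ∃ D : A, ‖D‖ ≤ ((p : ℝ) ^ 3)⁻¹ ∧ exp D = B ∧
      ∀ S : Submodule ℚ_[p] A, IsClosed (S : Set A) → (∀ n : ℕ, B ^ n ∈ S) → D ∈ S := by
  set N := B - 1
  have hN : ‖N‖ ≤ rad2 p := hB.trans rad3_le_rad2
  have h1N : 1 + N = B := by simp only [N]; abel
  set Nk : ℕ → A := fun k => B ^ p ^ k - 1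
  set D : ℕ → A := fun k => ((p : ℚ_[p]) ^ k)⁻¹ • Nk k
  have hNk : ∀ k, ‖Nk k‖ ≤ ((p : ℝ) ^ k)⁻¹ * ‖N‖ := fun k => by
    have := norm_pow_pp_sub_le hN k
    rwa [h1N] at this
  have hD : ∀ k, ‖D k‖ ≤ ‖N‖ := fun k => by
    rw [norm_smul, norm_inv, norm_p_pow, inv_inv]
    calc _ ≤ (p : ℝ) ^ k * (((p : ℝ) ^ k)⁻¹ * ‖N‖) :=
          mul_le_mul_of_nonneg_left (hNk k) (by positivity)
      _ = ‖N‖ := by rw [← mul_assoc, mul_inv_cancel₀ (pow_pos pR_pos k).ne', one_mul]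
  set c : ℝ := (p : ℝ) * ‖N‖ ^ 2
  have hstep : ∀ k, ‖D (k + 1) - D k‖ ≤ c * ((p : ℝ) ^ k)⁻¹ := fun k => by
    have hk : ‖Nk k‖ ≤ rad2 p := ((hNk k).trans (mul_le_of_le_one_left (norm_nonneg _)
      (inv_le_one_of_one_le₀ (one_le_pow₀ one_lt_pR.le)))).trans hN
    have h2 := (norm_pow_p_sub_le hk).2
    rw [show (1 : A) + Nk k = B ^ p ^ k by simp only [Nk]; abel, ← pow_mul, ← pow_succ] at h2
    have e : D (k + 1) - D k =
        ((p : ℚ_[p]) ^ (k + 1))⁻¹ • (Nk (k + 1) - (p : ℚ_[p]) • Nk k) := by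
      change ((p : ℚ_[p]) ^ (k + 1))⁻¹ • Nk (k + 1) - ((p : ℚ_[p]) ^ k)⁻¹ • Nk k = _
      rw [smul_sub _ (Nk (k + 1)), smul_smul]
      congr 2
      rw [pow_succ, mul_inv, mul_assoc, inv_mul_cancel₀ (Nat.cast_ne_zero.2 hp.out.ne_zero),
        mul_one]
    rw [e, norm_smul, norm_inv, norm_p_pow, inv_inv]
    refine (mul_le_mul_of_nonneg_left (h2.trans (pow_le_pow_left₀ (norm_nonneg _) (hNk k) 2))
      (by positivity)).trans_eq ?_
    rw [pow_succ']
    simp only [c]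
    linear_combination ((p : ℝ) * ‖N‖ ^ 2 * ((p : ℝ) ^ k)⁻¹) *
      mul_inv_cancel₀ (pow_pos (pR_pos (p := p)) k).ne'
  have hdiff : ∀ k l, ‖D (k + l) - D k‖ ≤ c * ((p : ℝ) ^ k)⁻¹ := fun k l => by
    induction l with
    | zero => rw [add_zero, sub_self, norm_zero]; positivity
    | succ l ih =>
      rw [show D (k + (l + 1)) - D k = (D (k + l + 1) - D (k + l)) + (D (k + l) - D k) by
        rw [add_assoc]; abel]
      refine (IsUltrametricDist.norm_add_le_max _ _).trans (max_le ((hstep _).trans ?_) ih)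
      exact mul_le_mul_of_nonneg_left (inv_anti₀ (pow_pos pR_pos k)
        (pow_le_pow_right₀ one_lt_pR.le (Nat.le_add_right k l))) (by positivity)
  obtain ⟨L, hL⟩ := cauchySeq_tendsto_of_complete (cauchySeq_of_le_tendsto_0
    (s := D) (fun k => c * ((p : ℝ) ^ k)⁻¹) (fun n m N' hn hm => by
      obtain ⟨a, rfl⟩ := Nat.exists_eq_add_of_le hn
      obtain ⟨b, rfl⟩ := Nat.exists_eq_add_of_le hm
      rw [dist_eq_norm, show D (N' + a) - D (N' + b) =
        (D (N' + a) - D N') - (D (N' + b) - D N') by abel]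
      exact (norm_sub_le_max' _ _).trans (max_le (hdiff _ _) (hdiff _ _)))
    (tendsto_inv_pow c))
  have hLk : ∀ k, ‖L - D k‖ ≤ c * ((p : ℝ) ^ k)⁻¹ := fun k =>
    le_of_tendsto ((((tendsto_add_atTop_iff_nat k).2 hL).sub_const (D k)).norm)
      (Eventually.of_forall fun l => by rw [add_comm l k]; exact hdiff k l)
  have hL0 : ‖L‖ ≤ ‖N‖ := le_of_tendsto' hL.norm hD
  have hLr : ‖L‖ ≤ rad2 p := hL0.trans hN
  have hmem : ∀ S : Submodule ℚ_[p] A, IsClosed (S : Set A) → (∀ n : ℕ, B ^ n ∈ S) → L ∈ S :=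
    fun S hS h => hS.mem_of_tendsto hL (Eventually.of_forall fun k =>
      S.smul_mem _ (S.sub_mem (h _) (by simpa using h 0)))
  have hcomm : Commute B L := by
    have h1 : ∀ k, Commute B (D k) := fun k =>
      (((Commute.refl B).pow_right _).sub_right (Commute.one_right B)).smul_right _
    exact tendsto_nhds_unique (hL.const_mul B) ((hL.mul_const B).congr fun k => (h1 k).eq.symm)
  refine ⟨L, hL0.trans hB, ?_, hmem⟩
  set g := exp (-L) * B
  have hgn : ‖g - 1‖ ≤ rad2 p := by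
    rw [show g - 1 = (exp (-L) - 1) * N + (exp (-L) - 1) + N by
      simp only [g, N, mul_sub, sub_mul, one_mul, mul_one]; abel]
    have h2 : ‖exp (-L) - 1‖ ≤ rad2 p :=
      (norm_exp_sub_one_le (by rwa [norm_neg])).trans (by rwa [norm_neg])
    refine (IsUltrametricDist.norm_add_le_max _ _).trans (max_le
      ((IsUltrametricDist.norm_add_le_max _ _).trans (max_le ?_ h2)) hN)
    exact (norm_mul_le _ _).trans ((mul_le_of_le_one_right (norm_nonneg _)
      (hN.trans rad2_le_one)).trans h2)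
  have hbound : ∀ k, ‖g - 1‖ ≤ ((p : ℝ) ^ 2 + c) * ((p : ℝ) ^ k)⁻¹ := fun k => by
    have h2 := norm_le_pow_pp_sub_one hgn k
    rw [add_sub_cancel] at h2
    refine h2.trans ?_
    have hgk : g ^ p ^ k = exp ((p ^ k) • (-L)) * (1 + Nk k) := by
      rw [exp_nsmul_small (by rwa [norm_neg]) (p ^ k), show (1 : A) + Nk k = B ^ p ^ k by
        simp only [Nk]; abel]
      exact (commute_exp hcomm.neg_right (by rwa [norm_neg])).symm.mul_pow _
    set u : A := (p ^ k) • (-L)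
    have hu' : u = ((p : ℚ_[p]) ^ k) • (-L) := by
      simp only [u, ← Nat.cast_pow, Nat.cast_smul_eq_nsmul]
    have hu1 : ‖u‖ ≤ ((p : ℝ) ^ k)⁻¹ := by
      rw [hu', norm_smul, norm_p_pow, norm_neg]
      exact mul_le_of_le_one_right (by positivity) (hLr.trans rad2_le_one)
    have hu : ‖u‖ ≤ rad2 p := (norm_nsmul_le_self _ _).trans (by rwa [norm_neg])
    have e : g ^ p ^ k - 1 =
        (exp u - 1 - u) + (exp u - 1) * Nk k + ((p : ℚ_[p]) ^ k) • (D k - L) := by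
      have hDk : ((p : ℚ_[p]) ^ k) • D k = Nk k := by
        change ((p : ℚ_[p]) ^ k) • (((p : ℚ_[p]) ^ k)⁻¹ • Nk k) = Nk k
        rw [smul_smul, mul_inv_cancel₀ (p_pow_ne k), one_smul]
      rw [hgk, show ((p : ℚ_[p]) ^ k) • (D k - L) = Nk k + u by
        rw [smul_sub, hDk, hu', smul_neg, sub_eq_add_neg]]
      simp only [mul_add, sub_mul, mul_one, one_mul]
      abel
    have hk2 : ‖g ^ p ^ k - 1‖ ≤ ((p : ℝ) ^ 2 + c) * (((p : ℝ) ^ k)⁻¹) ^ 2 := by
      rw [e]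
      refine (IsUltrametricDist.norm_add_le_max _ _).trans (max_le
        ((IsUltrametricDist.norm_add_le_max _ _).trans (max_le ?_ ?_)) ?_)
      · refine (norm_exp_sub_one_sub_le hu).trans ?_
        exact mul_le_mul (le_add_of_nonneg_right (by positivity))
          (pow_le_pow_left₀ (norm_nonneg _) hu1 2) (by positivity) (by positivity)
      · refine (norm_mul_le _ _).trans ((mul_le_mul ((norm_exp_sub_one_le hu).trans hu1)
          ((hNk k).trans (mul_le_of_le_one_right (by positivity) (hN.trans rad2_le_one)))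
          (norm_nonneg _) (by positivity)).trans ?_)
        rw [← pow_two]
        exact le_mul_of_one_le_left (by positivity)
          ((one_le_pow₀ one_lt_pR.le).trans (le_add_of_nonneg_right (by positivity)))
      · rw [norm_smul, norm_p_pow, norm_sub_rev]
        refine (mul_le_mul_of_nonneg_left (hLk k) (by positivity)).trans ?_
        rw [pow_two (((p : ℝ) ^ k)⁻¹), mul_comm c, ← mul_assoc, mul_comm ((p : ℝ) ^ 2 + c)]
        exact mul_le_mul_of_nonneg_left (le_add_of_nonneg_left (by positivity)) (by positivity)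
    refine (mul_le_mul_of_nonneg_left hk2 (by positivity)).trans_eq ?_
    field_simp
  have hg1 : g = 1 := sub_eq_zero.1 (norm_le_zero_iff.1
    (ge_of_tendsto' (tendsto_inv_pow ((p : ℝ) ^ 2 + c)) hbound))
  calc exp L = exp L * g := by rw [hg1, mul_one]
    _ = B := by simp only [g, ← mul_assoc, exp_neg_mul_self hLr, one_mul]

/-- **An element is determined by the exponentials of its small multiples.** -/
theorem eq_of_exp_smul_eq {x y : A} (n₀ : ℕ)
    (h : ∀ k, n₀ ≤ k → exp (((p : ℚ_[p]) ^ k) • x) = exp (((p : ℚ_[p]) ^ k) • y)) : x = y := by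
  set M := max ‖x‖ ‖y‖
  obtain ⟨n₁, hn₁⟩ := ((tendsto_inv_pow (p := p) M).eventually
    (eventually_le_nhds (rad2_pos (p := p)))).exists_forall_of_atTop
  refine sub_eq_zero.1 (norm_le_zero_iff.1 (ge_of_tendsto
    (tendsto_inv_pow (p := p) ((p : ℝ) ^ 2 * M ^ 2))
    (eventually_atTop.2 ⟨max n₀ n₁, fun k hk => ?_⟩)))
  have hsm : ∀ z : A, ‖z‖ ≤ M → ‖((p : ℚ_[p]) ^ k) • z‖ ≤ ((p : ℝ) ^ k)⁻¹ * M := fun z hz => by
    rw [norm_smul, norm_p_pow]
    exact mul_le_mul_of_nonneg_left hz (by positivity)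
  have hr : ((p : ℝ) ^ k)⁻¹ * M ≤ rad2 p := by
    rw [mul_comm]
    exact hn₁ k ((le_max_right _ _).trans hk)
  have hb : ∀ z : A, ‖z‖ ≤ M → ‖exp (((p : ℚ_[p]) ^ k) • z) - 1 - ((p : ℚ_[p]) ^ k) • z‖ ≤
      (p : ℝ) ^ 2 * (((p : ℝ) ^ k)⁻¹ * M) ^ 2 := fun z hz =>
    (norm_exp_sub_one_sub_le ((hsm z hz).trans hr)).trans
      (mul_le_mul_of_nonneg_left (pow_le_pow_left₀ (norm_nonneg _) (hsm z hz) 2) (by positivity))
  have h1 := h k ((le_max_left _ _).trans hk)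
  have e : ((p : ℚ_[p]) ^ k) • (x - y) =
      (exp (((p : ℚ_[p]) ^ k) • y) - 1 - ((p : ℚ_[p]) ^ k) • y) -
        (exp (((p : ℚ_[p]) ^ k) • x) - 1 - ((p : ℚ_[p]) ^ k) • x) := by
    rw [h1, smul_sub]
    abel
  have h2 := congrArg norm e
  rw [norm_smul, norm_p_pow] at h2
  have h3 := h2.trans_le ((norm_sub_le_max' _ _).trans
    (max_le (hb y (le_max_right _ _)) (hb x (le_max_left _ _))))
  rw [inv_mul_le_iff₀ (pow_pos pR_pos k)] at h3
  exact h3.trans_eq (by field_simp)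

end FA.Sen
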