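import Fermat.Agent.Sen.Cocycle

/-!
# Traces of matrices along the cyclotomic tower

The normalised trace is linear over the bottom level; a matrix over the completed tower splits
approximately as `γ Y - Y + R`, and one intertwining two small matrices of the bottom level lies
in the bottom level.
-/

set_option autoImplicit false
set_option linter.unusedSectionVars false

noncomputable section

open Finset Filter UniformSpace FA.TateSen
open scoped Topology Matrix.Norms.Elementwise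

namespace FA.Sen

variable {p : ℕ} [hp : Fact p.Prime] {d : Type*} [Fintype d] [DecidableEq d]

local notation "C" => ℂ_[p]
local notation "Ω" => PadicAlgCl p
local notation "G" => PadicAlgCl p ≃ₐ[ℚ_[p]] PadicAlgCl p
local notation "Md" => Matrix d d ℂ_[p]
local notation "Mo" => Matrix d d (PadicAlgCl p)

theorem norm_sub_le_ultra {E : Type*} [SeminormedAddCommGroup E] [IsUltrametricDist E] (x y : E) :
    ‖x - y‖ ≤ max ‖x‖ ‖y‖ := by
  rw [sub_eq_add_neg]
  exact (IsUltrametricDist.norm_add_le_max _ _).trans_eq (by rw [norm_neg])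

theorem avg_mul_fixed {γ : G} {a : Ω} (h : γ a = a) (x : Ω) : avg γ (a * x) = a * avg γ x := by
  simp only [avg, map_mul, pow_apply_fixed h, ← mul_sum]
  ring

theorem descend_mul : ∀ (k : ℕ) {m : ℕ} {γ : G} (_ : IsGen p m γ) {a : Ω} (_ : a ∈ cycLevel p m)
    (x : Ω), descend k γ (a * x) = a * descend k γ x
  | 0, _, _, _, _, _, _ => rfl
  | k + 1, m, γ, h, a, ha, x => by
    rw [descend, descend, descend_mul k h.pow_p (cycLevel_mono m.le_succ ha) x,
      avg_mul_fixed (h.fix ha)]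

theorem ntr_mul {m : ℕ} {γ : G} (h : IsGen p m γ) {a : Ω} (ha : a ∈ cycLevel p m) {x : Ω}
    (hx : x ∈ cycInf p) : ntr m γ (a * x) = a * ntr m γ x := by
  obtain ⟨k, hk⟩ := mem_level_add (m := m) hx
  rw [ntr_eq h hk, ntr_eq h (mul_mem (cycLevel_mono (Nat.le_add_right m k) ha) hk),
    descend_mul k h ha]

theorem ntr_sum {m : ℕ} {γ : G} (h : IsGen p m γ) {ι : Type*} (s : Finset ι) (f : ι → Ω)
    (hf : ∀ i ∈ s, f i ∈ cycInf p) : ntr m γ (∑ i ∈ s, f i) = ∑ i ∈ s, ntr m γ (f i) := by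
  classical
  induction s using Finset.induction with
  | empty => rw [sum_empty, sum_empty, ntr_fixed h (zero_mem _)]
  | insert i s hi ih =>
    rw [sum_insert hi, sum_insert hi, ntr_add h (hf i (mem_insert_self i s))
      (sum_mem fun j hj => hf j (mem_insert_of_mem hj)),
      ih fun j hj => hf j (mem_insert_of_mem hj)]

theorem ntr_matMul_left {m : ℕ} {γ : G} (h : IsGen p m γ) {B A : Mo}
    (hB : ∀ i j, B i j ∈ cycLevel p m) (hA : ∀ i j, A i j ∈ cycInf p) :
    (B * A).map (ntr m γ) = B * A.map (ntr m γ) := by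
  ext i j
  rw [Matrix.map_apply, Matrix.mul_apply, Matrix.mul_apply,
    ntr_sum h _ _ fun l _ => mul_mem (cycLevel_le_cycInf m (hB i l)) (hA l j)]
  exact sum_congr rfl fun l _ => ntr_mul h (hB i l) (hA l j)

theorem ntr_matMul_right {m : ℕ} {γ : G} (h : IsGen p m γ) {B A : Mo}
    (hB : ∀ i j, B i j ∈ cycLevel p m) (hA : ∀ i j, A i j ∈ cycInf p) :
    (A * B).map (ntr m γ) = A.map (ntr m γ) * B := by
  ext i j
  rw [Matrix.map_apply, Matrix.mul_apply, Matrix.mul_apply,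
    ntr_sum h _ _ fun l _ => mul_mem (hA i l) (cycLevel_le_cycInf m (hB l j))]
  refine sum_congr rfl fun l _ => ?_
  rw [mul_comm, ntr_mul h (hB l j) (hA i l), mul_comm]
  rfl

/-- Matrices over the algebraic numbers inside `ℂ_p`. -/
def coeM : Mo →+* Md := (Completion.coeRingHom : Ω →+* C).mapMatrix

theorem coeM_apply (A : Mo) (i j : d) : coeM A i j = ((A i j : Ω) : C) := rfl

theorem norm_coeM_le {A : Mo} {r : ℝ} (hr : 0 ≤ r) (h : ∀ i j, ‖A i j‖ ≤ r) : ‖coeM A‖ ≤ r :=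
  (Matrix.norm_le_iff hr).2 fun i j => by rw [coeM_apply, Completion.norm_coe]; exact h i j

theorem norm_le_coeM (A : Mo) (i j : d) : ‖A i j‖ ≤ ‖coeM A‖ := by
  rw [← Completion.norm_coe, ← coeM_apply]
  exact Matrix.norm_entry_le_entrywise_sup_norm _

theorem galM_coeM (σ : G) (A : Mo) : galM σ (coeM A) = coeM (A.map σ) :=
  Matrix.ext fun i j => gal_coe σ (A i j)

theorem kerFixed_coeM {A : Mo} (hA : ∀ i j, A i j ∈ cycInf p) : KerFixed p d (coeM A) :=
  fun h hh => Matrix.ext fun i j => by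
    rw [galM_apply, coeM_apply, gal_coe, fixed_of_le hh (hA i j)]

theorem coeM_mem_levelMat {m : ℕ} {A : Mo} (hA : ∀ i j, A i j ∈ cycLevel p m) :
    coeM A ∈ levelMat p d m := fun i j => coe_mem_levelC (hA i j)

theorem exists_coeM_eq {m : ℕ} {B : Md} (hB : B ∈ levelMat p d m) :
    ∃ A : Mo, (∀ i j, A i j ∈ cycLevel p m) ∧ coeM A = B := by
  choose a ha ha' using fun i j => mem_levelC.1 (hB i j)
  exact ⟨Matrix.of a, ha, Matrix.ext ha'⟩

theorem exists_near_decomp {m : ℕ} {γ : G} (h : IsGen p m γ) {x : C} (hx : x ∈ cycHat p) {ε : ℝ}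
    (hε : 0 < ε) :
    ∃ y ∈ cycInf p, ∃ b ∈ cycLevel p m, ‖x - ((γ y - y + b : Ω) : C)‖ ≤ ε ∧
      ‖b‖ ≤ p * max ‖x‖ ε ∧ ‖y‖ ≤ (p : ℝ) ^ 3 * max ‖x‖ ε := by
  obtain ⟨a, ha, hxa⟩ := exists_near hx hε
  have han : ‖a‖ ≤ max ‖x‖ ε := by
    rw [← Completion.norm_coe, show (a : C) = x - (x - (a : C)) by ring]
    exact (norm_sub_le_ultra _ _).trans (max_le_max le_rfl hxa.le)
  set b := ntr m γ a
  have hb : b ∈ cycInf p := cycLevel_le_cycInf m (ntr_mem h ha)
  have hbn : ‖b‖ ≤ p * max ‖x‖ ε :=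
    (norm_ntr_le h ha).trans (mul_le_mul_of_nonneg_left han pR_pos.le)
  obtain ⟨y, hy, hy0, hgy⟩ := exists_gop_eq h nearOne_one (sub_mem ha hb)
    (by rw [ntr_sub h ha hb, ntr_fixed h (ntr_mem h ha), sub_self])
  refine ⟨y, hy, b, ntr_mem h ha, ?_, hbn, ?_⟩
  · rw [gop_apply, map_one, one_mul] at hgy
    rw [hgy, sub_add_cancel]
    exact hxa.le
  · refine (norm_le_gop h nearOne_one hy hy0).trans ?_
    rw [hgy, show (p : ℝ) ^ 3 * max ‖x‖ ε = (p : ℝ) ^ 2 * (p * max ‖x‖ ε) by ring]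
    refine mul_le_mul_of_nonneg_left ((norm_sub_le_ultra a b).trans (max_le ?_ hbn)) (by positivity)
    exact han.trans (le_mul_of_one_le_left (le_max_of_le_left (norm_nonneg x)) one_lt_pR.le)

theorem exists_matrix_decomp {m : ℕ} {γ : G} (h : IsGen p m γ) {X : Md} (hX : KerFixed p d X)
    {ε : ℝ} (hε : 0 < ε) :
    ∃ Y R : Md, KerFixed p d Y ∧ R ∈ levelMat p d m ∧ ‖X - (galM γ Y - Y + R)‖ ≤ ε ∧
      ‖R‖ ≤ p * max ‖X‖ ε ∧ ‖Y‖ ≤ (p : ℝ) ^ 3 * max ‖X‖ ε := by
  choose y hy b hb he hbn hyn using fun i j => exists_near_decomp h (hX.mem_cycHat i j) hε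
  have hle : ∀ i j, max ‖X i j‖ ε ≤ max ‖X‖ ε := fun i j =>
    max_le_max (Matrix.norm_entry_le_entrywise_sup_norm X) le_rfl
  have hm : 0 ≤ max ‖X‖ ε := le_max_of_le_right hε.le
  refine ⟨coeM (Matrix.of y), coeM (Matrix.of b), kerFixed_coeM hy, coeM_mem_levelMat hb,
    (Matrix.norm_le_iff hε.le).2 fun i j => ?_,
    norm_coeM_le (mul_nonneg pR_pos.le hm) fun i j =>
      (hbn i j).trans (mul_le_mul_of_nonneg_left (hle i j) pR_pos.le),
    norm_coeM_le (mul_nonneg (pow_nonneg pR_pos.le 3) hm) fun i j =>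
      (hyn i j).trans (mul_le_mul_of_nonneg_left (hle i j) (pow_nonneg pR_pos.le 3))⟩
  rw [galM_coeM, ← map_sub, ← map_add]
  exact he i j

/-- **An intertwiner of small matrices of a level lies in that level.** -/
theorem mem_levelMat_of_intertwine {m : ℕ} {γ : G} (h : IsGen p m γ) {X B B' : Md}
    (hX : KerFixed p d X) (hB : B ∈ levelMat p d m) (hB' : B' ∈ levelMat p d m)
    (hBs : ‖B - 1‖ ≤ ((p : ℝ) ^ 3)⁻¹) (hBs' : ‖B' - 1‖ ≤ ((p : ℝ) ^ 3)⁻¹)
    (he : B * galM γ X = X * B') : X ∈ levelMat p d m := by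
  set r : ℝ := ((p : ℝ) ^ 3)⁻¹
  have hr1 : r ≤ 1 := inv_le_one_of_one_le₀ (one_le_pow₀ one_lt_pR.le)
  obtain ⟨B₀, hB₀, rfl⟩ := exists_coeM_eq hB
  obtain ⟨B₁, hB₁, rfl⟩ := exists_coeM_eq hB'
  let D : Md → Md := fun Z => coeM B₀ * galM γ Z - Z * coeM B₁
  have hDn : ∀ Z, ‖D Z‖ ≤ ‖Z‖ := fun Z => by
    refine (norm_sub_le_ultra _ _).trans (max_le ?_ ?_)
    · exact (norm_mul_le _ _).trans ((mul_le_of_le_one_left (norm_nonneg _)
        (norm_le_one_of_sub (hBs.trans hr1))).trans_eq (norm_galM γ Z))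
    · exact (norm_mul_le _ _).trans (mul_le_of_le_one_right (norm_nonneg _)
        (norm_le_one_of_sub (hBs'.trans hr1)))
  have hDsub : ∀ Y Z, D (Y - Z) = D Y - D Z := fun Y Z => by
    simp only [D, map_sub, mul_sub, sub_mul]
    abel
  have hDcoe : ∀ A : Mo, D (coeM A) = coeM (B₀ * A.map γ - A * B₁) := fun A => by
    simp only [D, galM_coeM, map_sub, map_mul]
  refine (isClosed_levelMat m).closure_subset (Metric.mem_closure_iff.2 fun δ hδ => ?_)
  set ε := δ / (2 * (p : ℝ) ^ 3)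
  have hε : 0 < ε := div_pos hδ (mul_pos two_pos (pow_pos pR_pos 3))
  choose a ha hxa using fun i j => exists_near (hX.mem_cycHat i j) hε
  set A : Mo := Matrix.of a
  set T : Mo := A.map (ntr m γ)
  have hT : ∀ i j, T i j ∈ cycLevel p m := fun i j => ntr_mem h (ha i j)
  have hXA : ‖X - coeM A‖ ≤ ε := (Matrix.norm_le_iff hε.le).2 fun i j => (hxa i j).le
  refine ⟨coeM T, coeM_mem_levelMat hT, ?_⟩
  have hDA : ‖D (coeM A)‖ ≤ ε := by
    have e : D (coeM A) = -D (X - coeM A) := by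
      rw [hDsub, neg_sub, show D X = 0 from sub_eq_zero.2 he, sub_zero]
    rw [e, norm_neg]
    exact (hDn _).trans hXA
  have hAγ : ∀ i j, A.map γ i j ∈ cycInf p := fun i j => gal_mem_cycInf γ (ha i j)
  have htr : (B₀ * A.map γ - A * B₁).map (ntr m γ) = B₀ * T.map γ - T * B₁ := by
    have h1 : (A.map γ).map (ntr m γ) = T := Matrix.ext fun i j =>
      ((ntr_gen h (ha i j)).1).trans ((ntr_gen h (ha i j)).2)
    have h2 : T.map γ = T := Matrix.ext fun i j => (ntr_gen h (ha i j)).2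
    rw [h2]
    conv_rhs => rw [show B₀ * T = B₀ * (A.map γ).map (ntr m γ) by rw [h1],
      ← ntr_matMul_left h hB₀ hAγ, ← ntr_matMul_right h (A := A) hB₁ ha]
    refine Matrix.ext fun i j => ?_
    refine ntr_sub h ?_ ?_
    · exact sum_mem fun l _ => mul_mem (cycLevel_le_cycInf m (hB₀ i l)) (hAγ l j)
    · exact sum_mem fun l _ => mul_mem (ha i l) (cycLevel_le_cycInf m (hB₁ l j))
  have hDT : ‖D (coeM T)‖ ≤ p * ε := by
    rw [hDcoe, ← htr]
    refine norm_coeM_le (mul_nonneg pR_pos.le hε.le) fun i j => ?_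
    refine (norm_ntr_le h ?_).trans (mul_le_mul_of_nonneg_left ?_ pR_pos.le)
    · exact sub_mem (sum_mem fun l _ => mul_mem (cycLevel_le_cycInf m (hB₀ i l)) (hAγ l j))
        (sum_mem fun l _ => mul_mem (ha i l) (cycLevel_le_cycInf m (hB₁ l j)))
    · rw [hDcoe] at hDA
      exact (norm_le_coeM _ i j).trans hDA
  set Y := coeM A - coeM T
  have hDY : ‖D Y‖ ≤ p * ε := by
    rw [hDsub]
    exact (norm_sub_le_ultra _ _).trans
      (max_le (hDA.trans (le_mul_of_one_le_left hε.le one_lt_pR.le)) hDT)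
  have hγY : ‖galM γ Y - Y‖ ≤ max (p * ε) (r * ‖Y‖) := by
    have e : galM γ Y - Y = D Y + ((1 - coeM B₀) * galM γ Y + Y * (coeM B₁ - 1)) := by
      simp only [D, sub_mul, mul_sub, one_mul, mul_one]
      abel
    rw [e]
    refine (IsUltrametricDist.norm_add_le_max _ _).trans (max_le_max hDY
      ((IsUltrametricDist.norm_add_le_max _ _).trans (max_le ?_ ?_)))
    · refine (norm_mul_le _ _).trans ?_
      rw [norm_galM, norm_sub_rev]
      exact mul_le_mul_of_nonneg_right hBs (norm_nonneg _)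
    · exact (norm_mul_le _ _).trans ((mul_le_mul_of_nonneg_left hBs' (norm_nonneg _)).trans_eq
        (mul_comm _ _))
  have hYn : ‖Y‖ ≤ (p : ℝ) ^ 2 * max (p * ε) (r * ‖Y‖) := by
    refine le_trans ?_ (mul_le_mul_of_nonneg_left hγY (by positivity))
    have e : Y = coeM (A - T) := by simp only [Y, map_sub]
    rw [e]
    refine norm_coeM_le (by positivity) fun i j => ?_
    have h3 := norm_sub_ntr_le h (sub_mem (ha i j) (cycLevel_le_cycInf m (hT i j)))
    rw [ntr_sub h (ha i j) (cycLevel_le_cycInf m (hT i j)), ntr_fixed h (hT i j),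
      show ntr m γ (a i j) - T i j = 0 from sub_self _, sub_zero] at h3
    refine h3.trans (mul_le_mul_of_nonneg_left ?_ (by positivity))
    rw [galM_coeM, ← map_sub]
    have h8 := norm_le_coeM ((A - T).map γ - (A - T)) i j
    rw [Matrix.sub_apply, Matrix.map_apply, Matrix.sub_apply, show A i j = a i j from rfl] at h8
    exact h8
  have hY : ‖Y‖ ≤ (p : ℝ) ^ 3 * ε := by
    rw [mul_max_of_nonneg _ _ (by positivity), le_max_iff] at hYn
    rcases hYn with h4 | h4
    · exact h4.trans_eq (by ring)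
    · have h5 : (p : ℝ) ^ 2 * r < 1 := by
        rw [← div_eq_mul_inv, div_lt_one (pow_pos pR_pos 3)]
        exact pow_lt_pow_right₀ one_lt_pR (by norm_num)
      rw [← mul_assoc] at h4
      have h6 : ‖Y‖ ≤ 0 := by
        by_contra hgt
        exact absurd h4 (not_le.2 (mul_lt_of_lt_one_left (not_le.1 hgt) h5))
      exact h6.trans (mul_nonneg (pow_nonneg pR_pos.le 3) hε.le)
  rw [dist_eq_norm, show X - coeM T = (X - coeM A) + Y by simp only [Y]; abel]
  refine ((IsUltrametricDist.norm_add_le_max _ _).trans (max_le_max hXA hY)).trans_lt ?_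
  have h7 : (p : ℝ) ^ 3 * ε = δ / 2 := by
    simp only [ε]
    field_simp [(pR_pos (p := p)).ne']
  refine max_lt ?_ (by rw [h7]; linarith)
  refine (le_mul_of_one_le_left hε.le
    (one_le_pow₀ one_lt_pR.le : (1 : ℝ) ≤ (p : ℝ) ^ 3)).trans_lt ?_
  rw [h7]
  linarith

end FA.Sen
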