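import Fermat.Agent.Sen.Descent
import Fermat.Agent.Sen.Level
import Fermat.Agent.TateSen.Untwisted

/-!
# Decompletion

After a change of basis a semilinear representation has all its matrices in one level of the
cyclotomic tower, and two such bases differ by a matrix of some level.
-/

set_option autoImplicit false
set_option linter.unusedSectionVars false

noncomputable section

open Finset Filter UniformSpace FA.TateSen
open scoped Topology Matrix.Norms.Elementwise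

namespace FA.Sen

variable {p : ℕ} [hp : Fact p.Prime] {d : Type*} [Fintype d] [DecidableEq d]

local notation "C" => ℂ_[p]
local notation "Ω" => PadicAlgCl p
local notation "G" => PadicAlgCl p ≃ₐ[ℚ_[p]] PadicAlgCl p
local notation "Md" => Matrix d d ℂ_[p]

theorem inv_pow_le {i j : ℕ} (h : i ≤ j) : ((p : ℝ) ^ j)⁻¹ ≤ ((p : ℝ) ^ i)⁻¹ :=
  inv_anti₀ (pow_pos pR_pos i) (pow_le_pow_right₀ one_lt_pR.le h)

theorem inv_pow_le_one (i : ℕ) : ((p : ℝ) ^ i)⁻¹ ≤ 1 :=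
  inv_le_one_of_one_le₀ (one_le_pow₀ one_lt_pR.le)

theorem norm_level_sum_le {R E : Md} {ρ : ℝ} (hR : ‖R‖ ≤ ρ) (hE : ‖E‖ ≤ ρ) : ‖R + E‖ ≤ ρ :=
  (IsUltrametricDist.norm_add_le_max _ _).trans (max_le hR hE)

/-- One step of the decompletion. -/
theorem exists_decompletion_step {m : ℕ} {γ : G} (h : IsGen p m γ) {X R : Md}
    (hX : KerFixed p d X) (hR : R ∈ levelMat p d m) (hRn : ‖R‖ ≤ ((p : ℝ) ^ 4)⁻¹) {e : ℝ}
    (he : 0 < e) (he5 : e ≤ ((p : ℝ) ^ 5)⁻¹) (hE : ‖X - 1 - R‖ ≤ e) :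
    ∃ (Q : Mdˣ) (R' : Md), KerFixed p d (Q : Md) ∧ R' ∈ levelMat p d m ∧
      ‖R'‖ ≤ ((p : ℝ) ^ 4)⁻¹ ∧ ‖(↑Q⁻¹ : Md) * X * galM γ (Q : Md) - 1 - R'‖ ≤ e / 2 ∧
      ‖R' - R‖ ≤ p * e ∧ ‖(Q : Md) - 1‖ ≤ (p : ℝ) ^ 3 * e := by
  have hp0 : (p : ℝ) ≠ 0 := (pR_pos (p := p)).ne'
  set E := X - 1 - R
  have hEker : KerFixed p d E := fun g hg => by
    simp only [E, map_sub, map_one, hX g hg, kerFixed_of_levelMat hR g hg]
  obtain ⟨Y, b, hY, hb, herr, hbn, hYn⟩ := exists_matrix_decomp h hEker (half_pos he)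
  have hm : max ‖E‖ (e / 2) ≤ e := max_le hE (half_le_self he.le)
  replace hbn : ‖b‖ ≤ p * e := hbn.trans (mul_le_mul_of_nonneg_left hm pR_pos.le)
  replace hYn : ‖Y‖ ≤ (p : ℝ) ^ 3 * e := hYn.trans
    (mul_le_mul_of_nonneg_left hm (pow_nonneg pR_pos.le 3))
  have hpe : p * e ≤ ((p : ℝ) ^ 4)⁻¹ :=
    (mul_le_mul_of_nonneg_left he5 pR_pos.le).trans_eq (by field_simp)
  have hE4 : ‖E‖ ≤ ((p : ℝ) ^ 4)⁻¹ := hE.trans (he5.trans (inv_pow_le (by norm_num)))
  have hY1 : ‖Y‖ < 1 := by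
    refine (hYn.trans (mul_le_mul_of_nonneg_left he5 (pow_nonneg pR_pos.le 3))).trans_lt ?_
    rw [← div_eq_mul_inv, div_lt_one (pow_pos pR_pos 5)]
    exact pow_lt_pow_right₀ one_lt_pR (by norm_num)
  obtain ⟨Q, hQ⟩ := isUnit_near_one (X := 1 - Y) (by rwa [sub_sub_cancel_left, norm_neg])
  have hQ1 : ‖(Q : Md) - 1‖ ≤ (p : ℝ) ^ 3 * e := by rwa [hQ, sub_sub_cancel_left, norm_neg]
  refine ⟨Q, R + b, fun g hg => ?_, add_mem hR hb, norm_level_sum_le hRn (hbn.trans hpe), ?_,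
    by rwa [add_sub_cancel_left], hQ1⟩
  · rw [hQ, map_sub, map_one, hY g hg]
  have e1 : X * galM γ (Q : Md) - (Q : Md) * (1 + (R + b)) =
      (E - (galM γ Y - Y + b)) - (R + E) * galM γ Y + Y * (R + b) := by
    simp only [hQ, E, map_sub, map_one, mul_sub, sub_mul, mul_add, add_mul, mul_one, one_mul]
    abel
  have e2 : (↑Q⁻¹ : Md) * X * galM γ (Q : Md) - 1 - (R + b) =
      (↑Q⁻¹ : Md) * (X * galM γ (Q : Md) - (Q : Md) * (1 + (R + b))) := by
    rw [mul_sub, Units.inv_mul_cancel_left, sub_sub, mul_assoc]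
  have hsmall : ((p : ℝ) ^ 4)⁻¹ * ((p : ℝ) ^ 3 * e) ≤ e / 2 := by
    rw [← mul_assoc, show ((p : ℝ) ^ 4)⁻¹ * (p : ℝ) ^ 3 = (p : ℝ)⁻¹ by field_simp, inv_mul_eq_div]
    exact div_le_div_of_nonneg_left he.le two_pos (by exact_mod_cast hp.out.two_le)
  rw [e2]
  refine (norm_mul_le _ _).trans ((mul_le_of_le_one_left (norm_nonneg _)
    (norm_inv_sub_one_le (by rw [hQ, sub_sub_cancel_left, norm_neg]; exact hY1)).2).trans ?_)
  rw [e1]
  refine (IsUltrametricDist.norm_add_le_max _ _).trans (max_le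
    ((norm_sub_le_ultra _ _).trans (max_le herr ?_)) ?_)
  · refine (norm_mul_le _ _).trans ((mul_le_mul (norm_level_sum_le hRn hE4)
      ((norm_galM γ Y).trans_le hYn) (norm_nonneg _) (by positivity)).trans hsmall)
  · refine (norm_mul_le _ _).trans ((mul_le_mul hYn (norm_level_sum_le hRn (hbn.trans hpe))
      (norm_nonneg _) (by positivity)).trans ?_)
    rw [mul_comm]
    exact hsmall

/-- A matrix close to one over the completed tower is twisted conjugate to one of the bottom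
level. -/
theorem exists_level_conj {m : ℕ} {γ : G} (h : IsGen p m γ) {B : Md} (hB : KerFixed p d B)
    (hBn : ‖B - 1‖ ≤ ((p : ℝ) ^ 5)⁻¹) :
    ∃ P : Mdˣ, KerFixed p d (P : Md) ∧ (↑P⁻¹ : Md) * B * galM γ (P : Md) ∈ levelMat p d m ∧
      ‖(↑P⁻¹ : Md) * B * galM γ (P : Md) - 1‖ ≤ ((p : ℝ) ^ 3)⁻¹ := by
  set e : ℕ → ℝ := fun k => ((p : ℝ) ^ 5)⁻¹ * (1 / 2) ^ k
  have he : ∀ k, 0 < e k := fun k =>
    mul_pos (inv_pos.2 (pow_pos pR_pos 5)) (pow_pos (by norm_num) k)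
  have he5 : ∀ k, e k ≤ ((p : ℝ) ^ 5)⁻¹ := fun k =>
    mul_le_of_le_one_right (inv_nonneg.2 (pow_nonneg pR_pos.le 5))
      (pow_le_one₀ (by norm_num) (by norm_num))
  set X : Mdˣ → Md := fun P => (↑P⁻¹ : Md) * B * galM γ (P : Md)
  let Good : ℕ → Mdˣ × Md → Prop := fun k Z => KerFixed p d (Z.1 : Md) ∧
    ‖(Z.1 : Md) - 1‖ ≤ ((p : ℝ) ^ 2)⁻¹ ∧ Z.2 ∈ levelMat p d m ∧
      ‖Z.2‖ ≤ ((p : ℝ) ^ 4)⁻¹ ∧ ‖X Z.1 - 1 - Z.2‖ ≤ e k
  have hstep : ∀ k Z, Good k Z → ∃ Z', Good (k + 1) Z' ∧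
      dist (Z.1 : Md) (Z'.1 : Md) ≤ ((p : ℝ) ^ 2)⁻¹ * (1 / 2) ^ k ∧
        dist Z.2 Z'.2 ≤ ((p : ℝ) ^ 4)⁻¹ * (1 / 2) ^ k := by
    rintro k ⟨P, R⟩ ⟨hP, hP1, hR, hRn, hX⟩
    have hXker : KerFixed p d (X P) := fun g hg => by
      have hc : galM g (galM γ (P : Md)) = galM γ (P : Md) := by
        rw [← galM_mul, show g * γ = γ * (γ⁻¹ * g * γ) by group, galM_mul,
          hP _ (conj_mem_ker hg γ)]
      simp only [X, map_mul, hB g hg, hP.units_inv g hg, hc]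
    obtain ⟨Q, R', hQ, hR', hR'n, hnew, hRR', hQ1⟩ :=
      exists_decompletion_step h hXker hR hRn (he k) (he5 k) hX
    have hQd : ‖(P : Md) * ((Q : Md) - 1)‖ ≤ ((p : ℝ) ^ 2)⁻¹ * (1 / 2) ^ k := by
      refine (norm_mul_le _ _).trans ((mul_le_of_le_one_left (norm_nonneg _)
        (norm_le_one_of_sub (hP1.trans (inv_pow_le_one 2)))).trans (hQ1.trans_eq ?_))
      simp only [e]
      field_simp [(pR_pos (p := p)).ne']
    refine ⟨(P * Q, R'), ⟨fun g hg => ?_, ?_, hR', hR'n, ?_⟩, ?_, ?_⟩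
    · rw [Units.val_mul, map_mul, hP g hg, hQ g hg]
    · rw [Units.val_mul, show (P : Md) * (Q : Md) - 1 =
        (P : Md) * ((Q : Md) - 1) + ((P : Md) - 1) by rw [mul_sub, mul_one]; abel]
      exact norm_level_sum_le (hQd.trans (mul_le_of_le_one_right
        (inv_nonneg.2 (pow_nonneg pR_pos.le 2)) (pow_le_one₀ (by norm_num) (by norm_num)))) hP1
    · have e2 : X (P * Q) = (↑Q⁻¹ : Md) * X P * galM γ (Q : Md) := by
        simp only [X, mul_inv_rev, Units.val_mul, map_mul, mul_assoc]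
      change ‖X (P * Q) - 1 - R'‖ ≤ e (k + 1)
      rw [e2]
      refine hnew.trans_eq ?_
      simp only [e]
      ring
    · rw [dist_eq_norm, Units.val_mul, norm_sub_rev]
      rwa [mul_sub, mul_one] at hQd
    · rw [dist_eq_norm, norm_sub_rev]
      refine hRR'.trans_eq ?_
      simp only [e]
      field_simp [(pR_pos (p := p)).ne']
  have h0 : Good 0 (1, 0) := by
    refine ⟨fun g _ => by rw [Units.val_one, map_one],
      by rw [Units.val_one, sub_self, norm_zero]; positivity, zero_mem _,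
      by rw [norm_zero]; positivity, ?_⟩
    simpa [X, e] using hBn
  choose! next hnext using hstep
  obtain ⟨Z, hZ0, hZs⟩ : ∃ Z : ℕ → Mdˣ × Md, Z 0 = (1, 0) ∧ ∀ k, Z (k + 1) = next k (Z k) :=
    ⟨fun n => Nat.rec (1, 0) next n, rfl, fun _ => rfl⟩
  have hZ : ∀ k, Good k (Z k) := fun k => by
    induction k with
    | zero => rw [hZ0]; exact h0
    | succ k ih => rw [hZs]; exact (hnext k (Z k) ih).1
  obtain ⟨L, hL⟩ := cauchySeq_tendsto_of_complete
    (cauchySeq_of_le_geometric (1 / 2) ((p : ℝ) ^ 2)⁻¹ (by norm_num) (f := fun k => ((Z k).1 : Md))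
      fun k => by rw [hZs]; exact (hnext k (Z k) (hZ k)).2.1)
  obtain ⟨R, hR⟩ := cauchySeq_tendsto_of_complete
    (cauchySeq_of_le_geometric (1 / 2) ((p : ℝ) ^ 4)⁻¹ (by norm_num) (f := fun k => (Z k).2)
      fun k => by rw [hZs]; exact (hnext k (Z k) (hZ k)).2.2)
  have hL1 : ‖L - 1‖ ≤ ((p : ℝ) ^ 2)⁻¹ := le_of_tendsto' (hL.sub_const 1).norm fun k => (hZ k).2.1
  have hp2 : ((p : ℝ) ^ 2)⁻¹ < 1 :=
    inv_lt_one_of_one_lt₀ (one_lt_pow₀ one_lt_pR (by norm_num))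
  obtain ⟨P, hP⟩ := isUnit_near_one (hL1.trans_lt hp2)
  have hPker : KerFixed p d (P : Md) := fun g hg => by
    rw [hP]
    exact tendsto_nhds_unique (((isometry_galM g).continuous.tendsto L).comp hL)
      (hL.congr fun k => ((hZ k).1 g hg).symm)
  have hR4 : ‖R‖ ≤ ((p : ℝ) ^ 4)⁻¹ := le_of_tendsto' hR.norm fun k => (hZ k).2.2.2.1
  have hkey : B * galM γ L = L * (1 + R) := by
    rw [← sub_eq_zero, ← norm_le_zero_iff]
    have hzero : Tendsto e atTop (𝓝 0) := by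
      simpa [e] using (tendsto_pow_atTop_nhds_zero_of_lt_one (by norm_num : (0 : ℝ) ≤ 1 / 2)
        (by norm_num)).const_mul ((p : ℝ) ^ 5)⁻¹
    refine le_of_tendsto_of_tendsto'
      (((((isometry_galM γ).continuous.tendsto L).comp hL).const_mul B).sub
        (hL.mul (hR.const_add 1))).norm hzero fun k => ?_
    have e3 : B * galM γ ((Z k).1 : Md) - ((Z k).1 : Md) * (1 + (Z k).2) =
        ((Z k).1 : Md) * (X (Z k).1 - 1 - (Z k).2) := by
      simp only [X, mul_sub, mul_add, mul_one, mul_assoc, Units.mul_inv_cancel_left]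
      abel
    rw [Function.comp_apply, e3]
    exact (norm_mul_le _ _).trans ((mul_le_of_le_one_left (norm_nonneg _)
      (norm_le_one_of_sub ((hZ k).2.1.trans (inv_pow_le_one 2)))).trans (hZ k).2.2.2.2)
  have e4 : (↑P⁻¹ : Md) * B * galM γ (P : Md) = 1 + R := by
    rw [mul_assoc, hP, hkey, ← hP, Units.inv_mul_cancel_left]
  refine ⟨P, hPker, ?_, ?_⟩
  · rw [e4]
    exact add_mem (one_mem _) ((isClosed_levelMat m).mem_of_tendsto hR
      (Eventually.of_forall fun k => (hZ k).2.2.1))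
  · rw [e4, add_sub_cancel_left]
    exact hR4.trans (inv_pow_le (by norm_num))

/-- On a level a representation trivial on the kernel is governed by the powers of a generator. -/
theorem IsRep.mem_of_gen {U : G → Md} (hU : IsRep p d U)
    (hker : ∀ h ∈ (cycInf p).fixingSubgroup, U h = 1) {m : ℕ} {γ : G} (h : IsGen p m γ)
    {S : Set Md} (hS : IsClosed S) (hpow : ∀ i : ℕ, U (γ ^ i) ∈ S) {σ : G}
    (hσ : σ ∈ levelGal p m) : U σ ∈ S := by
  refine hS.closure_subset (Metric.mem_closure_iff.2 fun ε hε => ?_)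
  have hc : Continuous fun u : G => U (σ * u⁻¹) :=
    hU.cont.comp (continuous_const.mul continuous_inv)
  obtain ⟨n, hn⟩ := exists_levelGal_subset (W := {u : G | ‖U (σ * u⁻¹) - U σ‖ < ε})
    (isOpen_lt (hc.sub continuous_const).norm continuous_const) (fun g hg => by
      show ‖U (σ * g⁻¹) - U σ‖ < ε
      rw [hU.mul_right_of_trivial hker σ (inv_mem hg), sub_self, norm_zero]
      exact hε) m
  obtain ⟨i, hi⟩ := h.exists_pow_mul hσ n
  refine ⟨_, hpow i, ?_⟩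
  have h1 : ‖U (σ * ((γ ^ i)⁻¹ * σ)⁻¹) - U σ‖ < ε := hn _ hi
  rw [mul_inv_rev, inv_inv, mul_inv_cancel_left] at h1
  rwa [dist_eq_norm, norm_sub_rev]

theorem mem_levelGal_gen {m : ℕ} {γ : G} (h : IsGen p m γ) : γ ∈ levelGal p m :=
  (IntermediateField.mem_fixingSubgroup_iff _ _).2 fun _ hx => h.fix hx

theorem levelGal_antitone {m n : ℕ} (h : m ≤ n) : levelGal p n ≤ levelGal p m :=
  IntermediateField.fixingSubgroup_antitone (cycLevel_mono h)

variable (p d) in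
/-- All matrices are in the level `m`, trivial on the kernel, and small on the group of the
level. -/
structure IsLevelForm (U : G → Md) (m : ℕ) : Prop where
  le : 2 ≤ m
  ker : ∀ h ∈ (cycInf p).fixingSubgroup, U h = 1
  mem : ∀ σ, U σ ∈ levelMat p d m
  small : ∀ σ ∈ levelGal p m, ‖U σ - 1‖ ≤ ((p : ℝ) ^ 3)⁻¹

/-- **Sen's decompletion theorem.** -/
theorem exists_level_form {U : G → Md} (hU : IsRep p d U) :
    ∃ (P : Mdˣ) (m : ℕ), IsLevelForm p d (conj U P) m := by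
  set H := (cycInf p).fixingSubgroup
  have hnorm : ∀ g ∈ H, ∀ σ : G, σ⁻¹ * g * σ ∈ H := fun g hg σ => conj_mem_ker hg σ
  obtain ⟨P₁, hP₁⟩ := exists_trivial_ker hU
  set W := conj U P₁
  have hW : IsRep p d W := hU.conj P₁
  obtain ⟨n, hn⟩ := exists_levelGal_subset (W := {σ : G | ‖W σ - 1‖ < ((p : ℝ) ^ 5)⁻¹})
    (isOpen_lt (hW.cont.sub continuous_const).norm continuous_const) (fun g hg => by
      show ‖W g - 1‖ < ((p : ℝ) ^ 5)⁻¹
      rw [hP₁ g hg, sub_self, norm_zero]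
      exact inv_pos.2 (pow_pos pR_pos 5)) 3
  obtain ⟨γ, hγ⟩ := exists_gen (p := p) (m := 3 + n) (by omega)
  obtain ⟨P₂, hP₂, hB₀, hBn₀⟩ := exists_level_conj hγ
    (fun g hg => hW.galM_of_trivial hnorm hP₁ γ hg) (hn γ (mem_levelGal_gen hγ)).le
  refine ⟨P₁ * P₂, 3 + n, ?_⟩
  rw [← conj_conj]
  set V := conj W P₂
  have hV : IsRep p d V := hW.conj P₂
  have hB : V γ ∈ levelMat p d (3 + n) := hB₀
  have hBn : ‖V γ - 1‖ ≤ ((p : ℝ) ^ 3)⁻¹ := hBn₀
  have hker : ∀ g ∈ H, V g = 1 := fun g hg =>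
    conj_eq_one_iff.2 (by rw [hP₁ g hg, one_mul, hP₂ g hg])
  have hpow : ∀ i : ℕ, V (γ ^ i) = V γ ^ i := fun i => by
    induction i with
    | zero => rw [pow_zero, pow_zero, hV.map_one]
    | succ i ih =>
      rw [pow_succ, pow_succ, hV.cocycle, ih,
        galM_fix_levelMat (pow_mem (mem_levelGal_gen hγ) i) hB]
  have hlevel : ∀ σ ∈ levelGal p (3 + n),
      V σ ∈ levelMat p d (3 + n) ∧ ‖V σ - 1‖ ≤ ((p : ℝ) ^ 3)⁻¹ := fun σ hσ => by
    have hcl : IsClosed {Z : Md | Z ∈ levelMat p d (3 + n) ∧ ‖Z - 1‖ ≤ ((p : ℝ) ^ 3)⁻¹} :=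
      (isClosed_levelMat _).inter (isClosed_le (continuous_id.sub continuous_const).norm
        continuous_const)
    refine hV.mem_of_gen hker hγ hcl (fun i => ?_) hσ
    show V (γ ^ i) ∈ levelMat p d (3 + n) ∧ ‖V (γ ^ i) - 1‖ ≤ ((p : ℝ) ^ 3)⁻¹
    rw [hpow i]
    refine ⟨pow_mem hB i, ?_⟩
    induction i with
    | zero =>
      rw [pow_zero, sub_self, norm_zero]
      exact inv_nonneg.2 (pow_nonneg pR_pos.le 3)
    | succ i ih =>
      rw [pow_succ, show V γ ^ i * V γ - 1 = V γ ^ i * (V γ - 1) + (V γ ^ i - 1) by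
        rw [mul_sub, mul_one]; abel]
      refine norm_level_sum_le ((norm_mul_le _ _).trans ((mul_le_of_le_one_left (norm_nonneg _)
        (norm_le_one_of_sub (ih.trans (inv_pow_le_one 3)))).trans hBn)) ih
  refine ⟨by omega, hker, fun σ => ?_, fun σ hσ => (hlevel σ hσ).2⟩
  have hcomm : γ⁻¹ * (σ⁻¹ * γ * σ) ∈ H := by
    rw [mem_fix_cycInf_iff, map_mul, map_inv, map_mul, map_mul, map_inv,
      mul_comm (chi p σ)⁻¹, mul_assoc, inv_mul_cancel, mul_one, inv_mul_cancel]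
  have hc : V (σ⁻¹ * γ * σ) = V γ := by
    conv_lhs => rw [← mul_inv_cancel_left γ (σ⁻¹ * γ * σ)]
    exact hV.mul_right_of_trivial hker γ hcomm
  have e : V γ * galM γ (V σ) = V σ * galM σ (V γ) := by
    rw [← hV.cocycle, ← hc, ← hV.cocycle]
    congr 1
    group
  refine mem_levelMat_of_intertwine hγ (fun g hg => hV.galM_of_trivial hnorm hker σ hg) hB
    (galM_mem_levelMat σ hB) hBn ?_ e
  rw [← _root_.map_one (galM (d := d) σ), ← map_sub, norm_galM]
  exact hBn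

/-- **Uniqueness**: two level forms differ by a matrix of a level. -/
theorem IsLevelForm.mem_level_of_conj {U : G → Md} {m m' : ℕ} (h : IsLevelForm p d U m) {Q : Mdˣ}
    (h' : IsLevelForm p d (conj U Q) m') : (Q : Md) ∈ levelMat p d (max m m') := by
  obtain ⟨γ, hγ⟩ := exists_gen (p := p) (m := max m m') (h.le.trans (le_max_left _ _))
  have hQ : KerFixed p d (Q : Md) := fun g hg => by
    have h1 := conj_eq_one_iff.1 (h'.ker g hg)
    rwa [h.ker g hg, one_mul] at h1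
  have hmem := mem_levelGal_gen hγ
  refine mem_levelMat_of_intertwine hγ hQ (levelMat_mono (le_max_left _ _) (h.mem γ))
    (levelMat_mono (le_max_right _ _) (h'.mem γ))
    (h.small γ (levelGal_antitone (le_max_left _ _) hmem))
    (h'.small γ (levelGal_antitone (le_max_right _ _) hmem)) ?_
  rw [conj, ← mul_assoc, ← mul_assoc, Units.mul_inv, one_mul]

end FA.Sen
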