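import Fermat.Agent.Sen.Cocycle
import Mathlib.Algebra.MvPolynomial.Funext
import Mathlib.LinearAlgebra.Dual.Lemmas

/-!
# Almost étale descent: `H¹ (H, GL_d (ℂ_p))` is trivial

`H` is the group of the field of all `p`-power roots of unity. Near the identity a crossed
homomorphism is trivialised by successive approximation with elements of trace one and absolute
value near one; the finite quotient that is left is trivialised by independence of characters.
-/

set_option autoImplicit false
set_option linter.unusedSectionVars false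

noncomputable section

open Finset Filter UniformSpace FA.TateSen
open scoped Topology Matrix.Norms.Elementwise

namespace FA.Sen

variable {p : ℕ} [hp : Fact p.Prime] {d : Type*} [Fintype d] [DecidableEq d]

local notation "C" => ℂ_[p]
local notation "Ω" => PadicAlgCl p
local notation "G" => PadicAlgCl p ≃ₐ[ℚ_[p]] PadicAlgCl p
local notation "Md" => Matrix d d ℂ_[p]

theorem galM_csmul (σ : G) (c : C) (X : Md) : galM σ (c • X) = gal σ c • galM σ X := by
  ext i j
  rw [galM_apply, Matrix.smul_apply, Matrix.smul_apply, galM_apply, smul_eq_mul, smul_eq_mul,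
    map_mul]

theorem levelField_fixingSubgroup {F : IntermediateField ℚ_[p] Ω} {V : Subgroup G}
    (hV : IsOpen (V : Set G)) :
    (levelField F V).fixingSubgroup = F.fixingSubgroup ⊓ V := by
  have hcl : IsClosed ((F.fixingSubgroup ⊓ V : Subgroup G) : Set G) :=
    (InfiniteGalois.fixingSubgroup_isClosed F).inter (V.isClosed_of_isOpen hV)
  exact InfiniteGalois.fixingSubgroup_fixedField ⟨F.fixingSubgroup ⊓ V, hcl⟩

theorem mem_of_levelRes_eq {F : IntermediateField ℚ_[p] Ω} {V : Subgroup G} [V.Normal]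
    (hV : IsOpen (V : Set G)) {a b : F.fixingSubgroup}
    (h : levelRes (U := V) a = levelRes b) : (a : G)⁻¹ * (b : G) ∈ V := by
  have hu : levelRes (U := V) (a⁻¹ * b) = 1 := by rw [map_mul, map_inv, h, inv_mul_cancel]
  have hmem : ((a⁻¹ * b : F.fixingSubgroup) : G) ∈ (levelField F V).fixingSubgroup := by
    rw [IntermediateField.mem_fixingSubgroup_iff]
    intro x hx
    exact congrArg Subtype.val (DFunLike.congr_fun hu ⟨x, hx⟩)
  rw [levelField_fixingSubgroup hV] at hmem
  exact hmem.2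

theorem coe_level_smul {F : IntermediateField ℚ_[p] Ω} {V : Subgroup G} [V.Normal]
    (σ : F.fixingSubgroup) (g : LevelGroup F V) (h : levelRes σ = g.1) (t : levelField F V) :
    gal (σ : G) ((t : Ω) : C) = (((g • t : levelField F V) : Ω) : C) := by
  rw [gal_coe]
  exact congrArg (fun a : levelField F V ≃ₐ[ℚ_[p]] levelField F V =>
    (((a t : levelField F V) : Ω) : C)) h

theorem levelRes_mul_eq {F : IntermediateField ℚ_[p] Ω} {V : Subgroup G} [V.Normal]
    (σ τ : F.fixingSubgroup) (g₀ g : LevelGroup F V) (hσ : levelRes σ = g₀.1)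
    (hτ : levelRes τ = g.1) : levelRes (σ * τ) = (g₀ * g).1 := by
  rw [map_mul, hσ, hτ, Subgroup.coe_mul]

theorem exists_approx_trivial {F : IntermediateField ℚ_[p] Ω} (hF : cycInf p ≤ F) {U : G → Md}
    (hU : IsRep p d U) {s : ℝ} (hs0 : 0 < s) (hs : s ≤ 1 / 4)
    (hb : ∀ h ∈ F.fixingSubgroup, ‖U h - 1‖ ≤ s) :
    ∃ P : Mdˣ, ‖(P : Md) - 1‖ ≤ 2 * s ∧
      ∀ h ∈ F.fixingSubgroup, ‖conj U P h - 1‖ ≤ s / 2 := by
  classical
  obtain ⟨V, hVn, hVo, hV⟩ := hU.exists_small (ε := s / 4) (by positivity)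
  have := levelGroup_finite (F := F) hVo
  have : Fintype (LevelGroup F V) := Fintype.ofFinite _
  obtain ⟨t, ht, hts⟩ := exists_level_trace (U := V) hF one_lt_two
  have hrep : ∀ g : LevelGroup F V, ∃ σ : F.fixingSubgroup, levelRes σ = g.1 := fun g => g.2
  choose r hr using hrep
  set T : LevelGroup F V → C := fun g => gal (r g : G) ((t : Ω) : C) with hT
  have hTsum : ∑ g, T g = 1 := by
    simp only [hT, coe_level_smul _ _ (hr _)]
    have h := congrArg Subtype.val hts
    rw [AddSubmonoidClass.coe_finsetSum] at h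
    exact (map_sum (Completion.coeRingHom : Ω →+* C) _ _).symm.trans
      ((congrArg (fun a : Ω => (a : C)) h).trans (map_one Completion.coeRingHom))
  have hTn : ∀ g, ‖T g‖ ≤ 2 := fun g => by
    rw [hT, norm_galC, Completion.norm_coe]
    exact ht
  set M : Md := ∑ g, T g • U (r g : G) with hM
  have hMn : ‖M - 1‖ ≤ 2 * s := by
    have e : M - 1 = ∑ g, T g • (U (r g : G) - 1) := by
      simp only [smul_sub, sum_sub_distrib, ← sum_smul, hTsum, one_smul, hM]
    rw [e]
    refine IsUltrametricDist.norm_sum_le_of_forall_le_of_nonneg (by positivity) fun g _ => ?_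
    rw [norm_smul]
    exact mul_le_mul (hTn g) (hb _ (r g).2) (norm_nonneg _) zero_le_two
  have hM1 : ‖M - 1‖ < 1 := hMn.trans_lt (by linarith)
  obtain ⟨P, hP⟩ := isUnit_near_one hM1
  refine ⟨P, by rwa [hP], fun h hh => ?_⟩
  set g₀ : LevelGroup F V := ⟨levelRes ⟨h, hh⟩, ⟨⟨h, hh⟩, rfl⟩⟩
  have hres : ∀ g, levelRes (U := V) (⟨h, hh⟩ * r g) = (g₀ * g).1 := fun g =>
    levelRes_mul_eq _ _ g₀ g rfl (hr g)
  have hker : ∀ g, ((r (g₀ * g) : G))⁻¹ * (h * (r g : G)) ∈ V := fun g => by
    have h3 := mem_of_levelRes_eq hVo ((hr (g₀ * g)).trans (hres g).symm)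
    rwa [Subgroup.coe_mul] at h3
  have hTh : ∀ g, gal h (T g) = T (g₀ * g) := fun g => by
    rw [hT]
    dsimp only
    rw [← gal_mul, coe_level_smul _ _ (hr (g₀ * g))]
    have h3 := coe_level_smul (V := V) (⟨h, hh⟩ * r g) (g₀ * g) (hres g) t
    rw [Subgroup.coe_mul] at h3
    exact h3
  set E : Md := ∑ g, T (g₀ * g) • (U (r (g₀ * g) : G) *
    galM (r (g₀ * g) : G) (U (((r (g₀ * g) : G))⁻¹ * (h * (r g : G))) - 1))
  have hkey : U h * galM h M = M + E := by
    have h1 : U h * galM h M = ∑ g, T (g₀ * g) • U (h * (r g : G)) := by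
      rw [hM, map_sum, Finset.mul_sum]
      exact sum_congr rfl fun g _ => by rw [galM_csmul, hTh, mul_smul_comm, ← hU.cocycle]
    have h2 : ∑ g, T (g₀ * g) • U (r (g₀ * g) : G) = M :=
      Equiv.sum_comp (Equiv.mulLeft g₀) fun g => T g • U (r g : G)
    rw [h1, ← h2]
    simp only [E]
    rw [← sum_add_distrib]
    refine sum_congr rfl fun g _ => ?_
    rw [← smul_add, map_sub, map_one, mul_sub, mul_one, add_sub_cancel, ← hU.cocycle,
      mul_inv_cancel_left]
  have hE : ‖E‖ ≤ s / 2 := by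
    refine IsUltrametricDist.norm_sum_le_of_forall_le_of_nonneg (by positivity) fun g _ => ?_
    rw [norm_smul]
    have h1 : ‖U (r (g₀ * g) : G)‖ ≤ 1 :=
      norm_le_one_of_sub ((hb _ (r (g₀ * g)).2).trans (by linarith))
    have h2 := (norm_galM (r (g₀ * g) : G)
      (U (((r (g₀ * g) : G))⁻¹ * (h * (r g : G))) - 1)).trans_le (hV _ (hker g)).le
    refine (mul_le_mul (hTn _) ((norm_mul_le _ _).trans (mul_le_mul h1 h2 (norm_nonneg _)
      zero_le_one)) (norm_nonneg _) zero_le_two).trans_eq ?_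
    ring
  have e : conj U P h - 1 = (↑P⁻¹ : Md) * E := by
    rw [conj, mul_assoc, hP, hkey, mul_add, ← hP, Units.inv_mul, add_sub_cancel_left]
  rw [e]
  exact (norm_mul_le _ _).trans ((mul_le_of_le_one_left (norm_nonneg _)
    (norm_inv_sub_one_le (by rwa [hP])).2).trans hE)

theorem exists_trivial_of_small {F : IntermediateField ℚ_[p] Ω} (hF : cycInf p ≤ F) {U : G → Md}
    (hU : IsRep p d U) (hb : ∀ h ∈ F.fixingSubgroup, ‖U h - 1‖ ≤ 1 / 4) :
    ∃ P : Mdˣ, ∀ h ∈ F.fixingSubgroup, conj U P h = 1 := by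
  classical
  let Good : ℕ → Mdˣ → Prop := fun k P => ‖(P : Md) - 1‖ ≤ 1 / 2 ∧
    ∀ h ∈ F.fixingSubgroup, ‖conj U P h - 1‖ ≤ 1 / 4 * (1 / 2) ^ k
  have hstep : ∀ k P, Good k P → ∃ P', Good (k + 1) P' ∧
      dist (P : Md) (P' : Md) ≤ 1 / 2 * (1 / 2) ^ k := by
    intro k P hP
    have hk : (1 / 2 : ℝ) ^ k ≤ 1 := pow_le_one₀ (by norm_num) (by norm_num)
    obtain ⟨Q, hQ, hQb⟩ := exists_approx_trivial hF (hU.conj P) (s := 1 / 4 * (1 / 2) ^ k)
      (by positivity) (mul_le_of_le_one_right (by norm_num) hk) hP.2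
    have hP1 : ‖(P : Md)‖ ≤ 1 := norm_le_one_of_sub (hP.1.trans (by norm_num))
    have hd : ‖(P : Md) * ((Q : Md) - 1)‖ ≤ 1 / 2 * (1 / 2) ^ k :=
      (norm_mul_le _ _).trans ((mul_le_of_le_one_left (norm_nonneg _) hP1).trans
        (hQ.trans_eq (by ring)))
    refine ⟨P * Q, ⟨?_, fun h hh => ?_⟩, ?_⟩
    · rw [Units.val_mul, show (P : Md) * (Q : Md) - 1 =
        (P : Md) * ((Q : Md) - 1) + ((P : Md) - 1) by rw [mul_sub, mul_one]; abel]
      exact (IsUltrametricDist.norm_add_le_max _ _).trans (max_le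
        (hd.trans (mul_le_of_le_one_right (by norm_num) hk)) hP.1)
    · rw [← conj_conj]
      exact (hQb h hh).trans_eq (by ring)
    · rw [dist_eq_norm, Units.val_mul, norm_sub_rev]
      rwa [mul_sub, mul_one] at hd
  have h0 : Good 0 1 := ⟨by simp, fun h hh => by rw [conj_one, pow_zero, mul_one]; exact hb h hh⟩
  choose! next hnext using hstep
  obtain ⟨Y, hY0, hYs⟩ : ∃ Y : ℕ → Mdˣ, Y 0 = 1 ∧ ∀ k, Y (k + 1) = next k (Y k) :=
    ⟨fun n => Nat.rec 1 next n, rfl, fun _ => rfl⟩
  have hY : ∀ k, Good k (Y k) := fun k => by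
    induction k with
    | zero => rw [hY0]; exact h0
    | succ k ih => rw [hYs]; exact (hnext k (Y k) ih).1
  have hdist : ∀ k, dist (Y k : Md) (Y (k + 1) : Md) ≤ 1 / 2 * (1 / 2) ^ k := fun k => by
    rw [hYs]
    exact (hnext k (Y k) (hY k)).2
  obtain ⟨L, hL⟩ := cauchySeq_tendsto_of_complete
    (cauchySeq_of_le_geometric (1 / 2) (1 / 2) (by norm_num) hdist)
  have hL1 : ‖L - 1‖ ≤ 1 / 2 := le_of_tendsto' (hL.sub_const 1).norm fun k => (hY k).1
  obtain ⟨P, hP⟩ := isUnit_near_one (hL1.trans_lt (by norm_num))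
  refine ⟨P, fun h hh => conj_eq_one_iff.2 ?_⟩
  rw [hP, ← sub_eq_zero, ← norm_le_zero_iff]
  have hlim : Tendsto (fun k => ‖U h * galM h (Y k : Md) - (Y k : Md)‖) atTop
      (𝓝 ‖U h * galM h L - L‖) :=
    ((((isometry_galM h).continuous.tendsto L).comp hL).const_mul (U h) |>.sub hL).norm
  have hzero : Tendsto (fun k : ℕ => (1 / 4 : ℝ) * (1 / 2) ^ k) atTop (𝓝 0) := by
    simpa using (tendsto_pow_atTop_nhds_zero_of_lt_one (by norm_num : (0 : ℝ) ≤ 1 / 2)
      (by norm_num)).const_mul (1 / 4 : ℝ)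
  refine le_of_tendsto_of_tendsto' hlim hzero fun k => ?_
  have e : U h * galM h (Y k : Md) - (Y k : Md) = (Y k : Md) * (conj U (Y k) h - 1) := by
    rw [conj, mul_sub, mul_one, mul_assoc, Units.mul_inv_cancel_left]
  rw [e]
  exact (norm_mul_le _ _).trans ((mul_le_of_le_one_left (norm_nonneg _)
    (norm_le_one_of_sub ((hY k).1.trans (by norm_num)))).trans ((hY k).2 h hh))

/-- The characters of the level field given by the level group. -/
def levelChar {F : IntermediateField ℚ_[p] Ω} {V : Subgroup G} [V.Normal]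
    (g : LevelGroup F V) : levelField F V →* C where
  toFun c := (((g • c : levelField F V) : Ω) : C)
  map_one' := by rw [smul_one]; exact map_one Completion.coeRingHom
  map_mul' a b := by rw [smul_mul']; exact map_mul Completion.coeRingHom _ _

/-- **Independence of characters**: some twisted sum is invertible. -/
theorem exists_twisted_sum_isUnit {F : IntermediateField ℚ_[p] Ω} {V : Subgroup G} [V.Normal]
    [Fintype (LevelGroup F V)] (X : LevelGroup F V → Md) {g₀ : LevelGroup F V}
    (hX : IsUnit (X g₀)) :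
    ∃ c : levelField F V, IsUnit (∑ g, levelChar g c • X g) := by
  classical
  have hinj : Function.Injective (levelChar (F := F) (V := V)) := fun g g' h => by
    refine Subtype.ext (AlgEquiv.ext fun c => Subtype.ext ?_)
    exact Completion.coe_injective Ω (DFunLike.congr_fun h c)
  have hlin := (linearIndependent_monoidHom (levelField F V) C).comp _ hinj
  set e : levelField F V → LevelGroup F V → C := fun c g => levelChar g c
  have hspan : Submodule.span C (Set.range e) = ⊤ := by
    by_contra hne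
    obtain ⟨φ, hφ, hker⟩ := Submodule.exists_dual_map_eq_bot_of_lt_top (lt_top_iff_ne_top.2 hne)
      inferInstance
    refine hφ (LinearMap.pi_ext' fun g => LinearMap.ext_ring ?_)
    have hz : ∀ c, φ (e c) = 0 := fun c => by
      have := Submodule.mem_map_of_mem (f := φ) (Submodule.subset_span ⟨c, rfl⟩ :
        e c ∈ Submodule.span C (Set.range e))
      rwa [hker, Submodule.mem_bot] at this
    have h1 : ∑ g, φ (Pi.single g 1) • ((levelChar g : levelField F V →* C) :
        levelField F V → C) = 0 := by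
      funext c
      rw [Finset.sum_apply, Pi.zero_apply, ← hz c]
      conv_rhs => rw [← univ_sum_single (e c), map_sum]
      refine sum_congr rfl fun g _ => ?_
      rw [Pi.smul_apply, smul_eq_mul, mul_comm, ← smul_eq_mul, ← map_smul, ← Pi.single_smul',
        smul_eq_mul, mul_one]
    simpa using Fintype.linearIndependent_iff.1 hlin (fun g => φ (Pi.single g 1)) h1 g
  obtain ⟨a, ha⟩ := Finsupp.mem_span_range_iff_exists_finsupp.1
    (hspan ▸ Submodule.mem_top : Pi.single g₀ (1 : C) ∈ Submodule.span C (Set.range e))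
  set s := a.support
  set Q : levelField F V → Md := fun c => ∑ g, levelChar g c • X g
  have hQ : ∑ c ∈ s, a c • Q c = X g₀ := by
    simp only [Q, smul_sum, smul_smul]
    rw [sum_comm, sum_eq_single g₀]
    · rw [← sum_smul]
      have := congrFun ha g₀
      rw [Finsupp.sum, Finset.sum_apply, Pi.single_eq_same] at this
      simp only [Pi.smul_apply, smul_eq_mul, e] at this
      rw [this, one_smul]
    · intro g _ hg
      rw [← sum_smul]
      have := congrFun ha g
      rw [Finsupp.sum, Finset.sum_apply, Pi.single_eq_of_ne hg] at this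
      simp only [Pi.smul_apply, smul_eq_mul, e] at this
      rw [this, zero_smul]
    · exact fun h => absurd (mem_univ _) h
  set Pm : Matrix d d (MvPolynomial s C) := ∑ c : s, MvPolynomial.X (R := C) c •
    (Q c).map (MvPolynomial.C (σ := s) (R := C))
  have hev : ∀ x : s → C, MvPolynomial.eval x Pm.det = (∑ c : s, x c • Q c).det := fun x => by
    rw [RingHom.map_det]
    congr 1
    ext i j
    simp [Pm, Matrix.sum_apply]
  have hne : Pm.det ≠ 0 := fun h0 => by
    have h1 := hev fun c => a c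
    rw [h0, map_zero, Finset.sum_coe_sort s fun c => a c • Q c, hQ] at h1
    exact ((Matrix.isUnit_iff_isUnit_det _).1 hX).ne_zero h1.symm
  obtain ⟨x, hx, hx0⟩ : ∃ x ∈ Set.pi Set.univ fun _ : s => Set.range (algebraMap ℚ_[p] C),
      MvPolynomial.eval x Pm.det ≠ 0 := by
    by_contra hcon
    push Not at hcon
    refine hne (MvPolynomial.funext_set _ (fun _ => Set.infinite_range_of_injective
      (algebraMap ℚ_[p] C).injective) fun x hx => ?_)
    rw [hcon x hx, map_zero]
  choose y hy using fun c : s => hx c trivial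
  refine ⟨∑ c : s, algebraMap ℚ_[p] (levelField F V) (y c) * (c : levelField F V),
    (Matrix.isUnit_iff_isUnit_det _).2 ?_⟩
  have e1 : ∀ g : LevelGroup F V,
      levelChar g (∑ c : s, algebraMap ℚ_[p] (levelField F V) (y c) * (c : levelField F V)) =
        ∑ c : s, x c * levelChar g (c : levelField F V) := fun g => by
    change ((((g : levelField F V ≃ₐ[ℚ_[p]] levelField F V)
      (∑ c : s, algebraMap ℚ_[p] (levelField F V) (y c) * (c : levelField F V)) :
        levelField F V) : Ω) : C) = _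
    rw [map_sum, AddSubmonoidClass.coe_finsetSum]
    refine (map_sum (Completion.coeRingHom : Ω →+* C) _ _).trans (sum_congr rfl fun c _ => ?_)
    rw [map_mul, AlgEquiv.commutes, MulMemClass.coe_mul, map_mul, ← hy c,
      IsScalarTower.algebraMap_apply ℚ_[p] Ω C, ← PadicComplex.coe_eq]
    rfl
  rw [isUnit_iff_ne_zero]
  simp only [e1, sum_smul, ← smul_smul]
  rw [sum_comm]
  simp only [← smul_sum]
  rw [← hev]
  exact hx0

/-- **Almost étale descent**: `H¹ (H, GL_d (ℂ_p))` is trivial. -/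
theorem exists_trivial_ker {U : G → Md} (hU : IsRep p d U) :
    ∃ P : Mdˣ, ∀ h ∈ (cycInf p).fixingSubgroup, conj U P h = 1 := by
  classical
  set H := (cycInf p).fixingSubgroup
  obtain ⟨V, hVn, hVo, hV⟩ := hU.exists_small (ε := 1 / 4) (by norm_num)
  obtain ⟨P₁, hP₁⟩ := exists_trivial_of_small (F := levelField (cycInf p) V) le_levelField hU
    (fun h hh => by rw [levelField_fixingSubgroup hVo] at hh; exact (hV h hh.2).le)
  rw [levelField_fixingSubgroup hVo] at hP₁
  set W := conj U P₁
  have hW : IsRep p d W := hU.conj P₁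
  have := levelGroup_finite (F := cycInf p) hVo
  have : Fintype (LevelGroup (cycInf p) V) := Fintype.ofFinite _
  have hrep : ∀ g : LevelGroup (cycInf p) V, ∃ σ : H, levelRes σ = g.1 := fun g => g.2
  choose r hr using hrep
  obtain ⟨c, hc⟩ := exists_twisted_sum_isUnit (fun g => W (r g : G)) (g₀ := 1) (hW.isUnit _)
  obtain ⟨P₂, hP₂⟩ := hc
  refine ⟨P₁ * P₂, fun h hh => ?_⟩
  rw [← conj_conj, conj_eq_one_iff, hP₂, map_sum, Finset.mul_sum]
  set g₀ : LevelGroup (cycInf p) V := ⟨levelRes ⟨h, hh⟩, ⟨⟨h, hh⟩, rfl⟩⟩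
  conv_rhs => rw [← Equiv.sum_comp (Equiv.mulLeft g₀)]
  refine sum_congr rfl fun g _ => ?_
  have hres : levelRes (U := V) (⟨h, hh⟩ * r g) = (g₀ * g).1 :=
    levelRes_mul_eq _ _ g₀ g rfl (hr g)
  have h4 := mem_of_levelRes_eq hVo ((hr (g₀ * g)).trans hres.symm)
  rw [Subgroup.coe_mul] at h4
  have hmem : ((r (g₀ * g) : G))⁻¹ * (h * (r g : G)) ∈ H ⊓ V :=
    ⟨H.mul_mem (H.inv_mem (r (g₀ * g)).2) (H.mul_mem hh (r g).2), h4⟩
  have hWr : W (h * (r g : G)) = W (r (g₀ * g) : G) := by
    conv_lhs => rw [show h * (r g : G) =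
      (r (g₀ * g) : G) * (((r (g₀ * g) : G))⁻¹ * (h * (r g : G))) by rw [mul_inv_cancel_left]]
    exact hW.mul_right_of_trivial hP₁ _ hmem
  rw [galM_csmul, mul_smul_comm, ← hW.cocycle, hWr]
  congr 1
  change gal h (((g • c : levelField (cycInf p) V) : Ω) : C) =
    ((((g₀ * g) • c : levelField (cycInf p) V) : Ω) : C)
  rw [← coe_level_smul (r g) g (hr g) c, ← gal_mul]
  have h3 := coe_level_smul (V := V) (⟨h, hh⟩ * r g) (g₀ * g) hres c
  rw [Subgroup.coe_mul] at h3
  exact h3

end FA.Sen
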