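import Fermat.Agent.Sen.Decompletion

/-!
# The Sen operator

In a level form a representation is `σ ↦ exp (log χ(σ) Θ)` near the identity. The matrix `Θ` is
unique up to conjugation by a matrix of a level, and vanishes exactly when the representation
becomes trivial on an open subgroup.
-/

set_option autoImplicit false
set_option linter.unusedSectionVars false

noncomputable section

open Finset Filter UniformSpace FA.TateSen NormedSpace
open scoped Topology Matrix.Norms.Elementwise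

namespace FA.Sen

variable {p : ℕ} [hp : Fact p.Prime] {d : Type*} [Fintype d] [DecidableEq d]

local notation "C" => ℂ_[p]
local notation "Ω" => PadicAlgCl p
local notation "G" => PadicAlgCl p ≃ₐ[ℚ_[p]] PadicAlgCl p
local notation "Md" => Matrix d d ℂ_[p]

theorem expM_add {X Y : Md} (h : Commute X Y) (hX : ‖X‖ ≤ rad2 p) (hY : ‖Y‖ ≤ rad2 p) :
    exp (X + Y) = exp X * exp Y :=
  exp_add_small h hX hY

theorem expM_nsmul {X : Md} (hX : ‖X‖ ≤ rad2 p) (n : ℕ) : exp (n • X) = exp X ^ n :=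
  exp_nsmul_small hX n

theorem expM_sub_one {X : Md} (hX : ‖X‖ ≤ rad2 p) : ‖exp X - 1‖ ≤ ‖X‖ :=
  norm_exp_sub_one_le hX

theorem exists_expM_eq {B : Md} (hB : ‖B - 1‖ ≤ ((p : ℝ) ^ 3)⁻¹) :
    ∃ D : Md, ‖D‖ ≤ ((p : ℝ) ^ 3)⁻¹ ∧ exp D = B ∧
      ∀ S : Submodule ℚ_[p] Md, IsClosed (S : Set Md) → (∀ n : ℕ, B ^ n ∈ S) → D ∈ S :=
  exists_exp_eq hB

variable (p d) in
/-- `Θ` is a Sen operator of `U`: in a basis in which all matrices lie in one level of the tower
it has entries in that level and gives them near the identity by the exponential. -/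
def IsSenOperator (U : G → Md) (Θ : Md) : Prop :=
  ∃ (P : Mdˣ) (m : ℕ), IsLevelForm p d (conj U P) m ∧ Θ ∈ levelMat p d m ∧
    ∃ n, ∀ σ ∈ levelGal p n, conj U P σ = exp (logChi p σ • Θ)

theorem logChi_one : logChi p (1 : G) = 0 := logChi_eq_zero_of_ker (one_mem _)

theorem logChi_pow (σ : G) (i : ℕ) : logChi p (σ ^ i) = i * logChi p σ := by
  induction i with
  | zero => rw [pow_zero, logChi_one, Nat.cast_zero, zero_mul]
  | succ i ih => rw [pow_succ, logChi_mul, ih, Nat.cast_succ, add_one_mul]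

theorem norm_natCast_mul_smul_le (i : ℕ) (c : ℚ_[p]) (X : Md) :
    ‖((i : ℚ_[p]) * c) • X‖ ≤ ‖c • X‖ := by
  rw [mul_smul, Nat.cast_smul_eq_nsmul]
  exact norm_nsmul_le_self i _

/-- Near the identity small multiples of a matrix by the logarithm of the character. -/
theorem exists_small_log (Θ : Md) {ε : ℝ} (hε : 0 < ε) (m : ℕ) :
    ∃ n, ∀ σ ∈ levelGal p (m + n), ‖logChi p σ • Θ‖ ≤ ε := by
  obtain ⟨n, hn⟩ := exists_levelGal_subset (W := {σ : G | ‖logChi p σ • Θ‖ < ε})
    (isOpen_lt (continuous_logChi.smul continuous_const).norm continuous_const) (fun g hg => by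
      show ‖logChi p g • Θ‖ < ε
      rwa [logChi_eq_zero_of_ker hg, zero_smul, norm_zero]) m
  exact ⟨n, fun σ hσ => (hn σ hσ).le⟩

theorem exp_conj_small (P : Mdˣ) {X : Md} (hX : ‖X‖ ≤ rad2 p)
    (hY : ‖(↑P⁻¹ : Md) * X * P‖ ≤ rad2 p) :
    exp ((↑P⁻¹ : Md) * X * P) = (↑P⁻¹ : Md) * exp X * P := by
  have h1 := ((hasSum_exp hX).mul_left (↑P⁻¹ : Md)).mul_right (P : Md)
  simp only [mul_smul_comm, smul_mul_assoc, ← Units.conj_pow'] at h1
  exact (hasSum_exp hY).unique h1

theorem IsRep.map_pow_of_level {U : G → Md} (hU : IsRep p d U) {m : ℕ} {γ : G}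
    (hγ : γ ∈ levelGal p m) (hB : U γ ∈ levelMat p d m) (i : ℕ) : U (γ ^ i) = U γ ^ i := by
  induction i with
  | zero => rw [pow_zero, pow_zero, hU.map_one]
  | succ i ih => rw [pow_succ, pow_succ, hU.cocycle, ih, galM_fix_levelMat (pow_mem hγ i) hB]

/-- A level form is an exponential of the logarithm of the character near the identity. -/
theorem IsLevelForm.exists_exp {U : G → Md} (hU : IsRep p d U) {m : ℕ}
    (h : IsLevelForm p d U m) :
    ∃ Θ ∈ levelMat p d m, ∃ n, ∀ σ ∈ levelGal p n, U σ = exp (logChi p σ • Θ) := by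
  obtain ⟨γ, hγ⟩ := exists_gen (p := p) h.le
  have hmem := mem_levelGal_gen hγ
  obtain ⟨D, hD, hexp, hDS⟩ := exists_expM_eq (h.small γ hmem)
  set ℓ := logChi p γ
  have hℓ : ℓ ≠ 0 := logChi_gen_ne_zero hγ
  set Θ := ℓ⁻¹ • D
  have hΘ : Θ ∈ levelMat p d m := (levelMat p d m).smul_mem
    (hDS (Subalgebra.toSubmodule (levelMat p d m)) (isClosed_levelMat m)
      fun i => pow_mem (h.mem γ) i) _
  refine ⟨Θ, hΘ, ?_⟩
  obtain ⟨n, hn⟩ := exists_small_log Θ (rad2_pos (p := p)) m
  refine ⟨m + n, fun σ hσ => ?_⟩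
  set γ' := γ ^ p ^ n
  have hγ' : IsGen p (m + n) γ' := hγ.pow_iterate n
  have hmem' := mem_levelGal_gen hγ'
  have hU' : U γ' = exp (logChi p γ' • Θ) := by
    rw [hU.map_pow_of_level hmem (h.mem γ), ← hexp, ← expM_nsmul (hD.trans rad3_le_rad2),
      logChi_pow, mul_smul, Nat.cast_smul_eq_nsmul, smul_inv_smul₀ hℓ]
  rw [← sub_eq_zero, ← norm_le_zero_iff]
  refine le_of_forall_pos_le_add fun ε hε => ?_
  rw [zero_add]
  obtain ⟨l, hl⟩ := exists_small_log Θ (lt_min hε (rad2_pos (p := p))) (m + n)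
  obtain ⟨l', hl'⟩ := exists_levelGal_subset (W := {u : G | ‖U u - 1‖ < ε})
    (isOpen_lt (hU.cont.sub continuous_const).norm continuous_const) (fun g hg => by
      show ‖U g - 1‖ < ε
      rwa [h.ker g hg, sub_self, norm_zero]) (m + n)
  obtain ⟨i, hi⟩ := hγ'.exists_pow_mul hσ (max l l')
  set u := (γ' ^ i)⁻¹ * σ
  have hu : ‖logChi p u • Θ‖ ≤ min ε (rad2 p) :=
    hl u (levelGal_antitone (Nat.add_le_add_left (le_max_left _ _) _) hi)
  have hUu : ‖U u - 1‖ ≤ ε :=
    (hl' u (levelGal_antitone (Nat.add_le_add_left (le_max_right _ _) _) hi) :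
      ‖U u - 1‖ < ε).le
  have hγ'n : ‖logChi p γ' • Θ‖ ≤ rad2 p := hn γ' hmem'
  have hB' : U γ' ∈ levelMat p d (m + n) := levelMat_mono (Nat.le_add_right m n) (h.mem γ')
  have e1 : U σ = U γ' ^ i * U u := by
    rw [show σ = γ' ^ i * u from (mul_inv_cancel_left _ _).symm, hU.cocycle,
      hU.map_pow_of_level hmem' hB', galM_fix_levelMat (pow_mem hmem' i)
        (levelMat_mono (Nat.le_add_right m n) (h.mem u))]
  have e2 : exp (logChi p σ • Θ) = U γ' ^ i * exp (logChi p u • Θ) := by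
    rw [hU', ← expM_nsmul hγ'n, ← Nat.cast_smul_eq_nsmul ℚ_[p] i,
      ← mul_smul (i : ℚ_[p]) (logChi p γ') Θ,
      ← expM_add (((Commute.refl Θ).smul_left _).smul_right _)
        ((norm_natCast_mul_smul_le i _ Θ).trans hγ'n) (hu.trans (min_le_right _ _)),
      ← add_smul, ← logChi_pow, ← logChi_mul, mul_inv_cancel_left]
  rw [e1, e2, ← mul_sub]
  refine (norm_mul_le _ _).trans ((mul_le_of_le_one_left (norm_nonneg _) ?_).trans ?_)
  · rw [← hU.map_pow_of_level hmem' hB']
    exact norm_le_one_of_sub ((h.small _ (levelGal_antitone (Nat.le_add_right m n)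
      (pow_mem hmem' i))).trans (inv_pow_le_one 3))
  · rw [show U u - exp (logChi p u • Θ) = (U u - 1) - (exp (logChi p u • Θ) - 1) by abel]
    exact (norm_sub_le_ultra _ _).trans (max_le hUu
      ((expM_sub_one (hu.trans (min_le_right _ _))).trans (hu.trans (min_le_left _ _))))

/-- **Every semilinear representation has a Sen operator.** -/
theorem exists_senOperator {U : G → Md} (hU : IsRep p d U) : ∃ Θ, IsSenOperator p d U Θ := by
  obtain ⟨P, m, h⟩ := exists_level_form hU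
  obtain ⟨Θ, hΘ, hn⟩ := h.exists_exp (hU.conj P)
  exact ⟨Θ, P, m, h, hΘ, hn⟩

/-- Two matrices with the same exponentials along a generator are equal. -/
theorem eq_of_exp_log {m : ℕ} {γ : G} (h : IsGen p m γ) {X Y : Md} {n : ℕ}
    (he : ∀ σ ∈ levelGal p n, exp (logChi p σ • X) = exp (logChi p σ • Y)) : X = Y := by
  refine smul_right_injective Md (logChi_gen_ne_zero h) 
    (eq_of_exp_smul_eq (p := p) n fun k hk => ?_)
  have h1 := he (γ ^ p ^ k)
    (levelGal_antitone (by omega) (mem_levelGal_gen (h.pow_iterate k)))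
  rwa [logChi_pow, Nat.cast_pow, mul_smul, mul_smul] at h1

/-- **The Sen operator is unique up to conjugation by a matrix of a level.** -/
theorem IsSenOperator.exists_conj {U : G → Md} {Θ Θ' : Md} (h : IsSenOperator p d U Θ)
    (h' : IsSenOperator p d U Θ') :
    ∃ (Q : Mdˣ) (k : ℕ), (Q : Md) ∈ levelMat p d k ∧ Θ' = (↑Q⁻¹ : Md) * Θ * (Q : Md) := by
  obtain ⟨P, m, hP, -, n, hn⟩ := h
  obtain ⟨P', m', hP', -, n', hn'⟩ := h'
  set Q := P⁻¹ * P'
  have hQ : conj (conj U P) Q = conj U P' := by rw [conj_conj, mul_inv_cancel_left]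
  have hQk := hP.mem_level_of_conj (Q := Q) (m' := m') (by rwa [hQ])
  refine ⟨Q, max m m', hQk, ?_⟩
  obtain ⟨γ, hγ⟩ := exists_gen (p := p) hP.le
  obtain ⟨a, ha⟩ := exists_small_log Θ (rad2_pos (p := p)) 0
  obtain ⟨b, hb⟩ := exists_small_log ((↑Q⁻¹ : Md) * Θ * (Q : Md)) (rad2_pos (p := p)) 0
  refine eq_of_exp_log hγ (n := (max n n') + (max (0 + a) (0 + b)) + max m m') fun σ hσ => ?_
  have h1 := congrFun hQ σ
  rw [FA.Sen.conj, hn σ (levelGal_antitone (by omega) hσ),
    galM_fix_levelMat (levelGal_antitone (by omega) hσ) hQk,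
    hn' σ (levelGal_antitone (by omega) hσ)] at h1
  have e : logChi p σ • ((↑Q⁻¹ : Md) * Θ * (Q : Md)) =
      (↑Q⁻¹ : Md) * (logChi p σ • Θ) * (Q : Md) := by
    rw [mul_smul_comm, smul_mul_assoc]
  rw [← h1, e, exp_conj_small Q (ha σ (levelGal_antitone (by omega) hσ))
    (by rw [← e]; exact hb σ (levelGal_antitone (by omega) hσ))]

/-- **The characteristic polynomial of the Sen operator is an invariant.** -/
theorem IsSenOperator.charpoly_eq {U : G → Md} {Θ Θ' : Md} (h : IsSenOperator p d U Θ)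
    (h' : IsSenOperator p d U Θ') : Θ'.charpoly = Θ.charpoly := by
  obtain ⟨Q, -, -, rfl⟩ := h.exists_conj h'
  rw [Matrix.coe_units_inv]
  exact Matrix.charpoly_units_conj' Q Θ

end FA.Sen
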